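import Fermat.Agent.MFLib.Descent

set_option autoImplicit false

open UpperHalfPlane ModularForm Complex Filter Topology Matrix.SpecialLinearGroup Asymptotics
open scoped MatrixGroups Manifold

namespace Fermat.Agent.MFLib

noncomputable section

local notation "Δ" => ModularForm.discriminant

/-- Function-level cusp forms. -/
structure IsCF (Γ : Subgroup SL(2, ℤ)) (k : ℤ) (f : ℍ → ℂ) : Prop extends IsMF Γ k f where
  zero_cusps : ∀ γ : SL(2, ℤ), IsZeroAtImInfty (f ∣[k] γ)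

variable {Γ : Subgroup SL(2, ℤ)} {k l : ℤ} {f g : ℍ → ℂ}

lemma disc_slash_twelve (γ : SL(2, ℤ)) : (Δ : ℍ → ℂ) ∣[(12 : ℤ)] γ = Δ :=
  isMF_disc.slash γ (Subgroup.mem_top _)

namespace IsCF

lemma of_class {F : Type*} [FunLike F ℍ ℂ] [Γ.FiniteIndex] [CuspFormClass F Γ k] (f : F) :
    IsCF Γ k f where
  toIsMF := IsMF.of_class f
  zero_cusps γ := by
    exact CuspFormClass.zero_at_infty_slash f γ

/-- the bundled cusp form -/
def toCuspForm [Γ.FiniteIndex] (h : IsCF Γ k f) : CuspForm Γ k where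
  toFun := f
  slash_action_eq' := by rintro _ ⟨γ, hγ, rfl⟩; exact h.slash γ hγ
  holo' := h.holo
  zero_at_cusps' hc := by
    rw [Subgroup.IsArithmetic.isCusp_iff_isCusp_SL2Z] at hc
    rw [OnePoint.isZeroAt_iff_forall_SL2Z hc]
    exact fun γ _ => h.zero_cusps γ

@[simp] lemma coe_toCuspForm [Γ.FiniteIndex] (h : IsCF Γ k f) : ⇑(h.toCuspForm) = f := rfl

/-- A power of a cusp form is divisible by the discriminant. -/
lemma exists_pow_eq [Γ.FiniteIndex] (hf : IsCF Γ k f) :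
    ∃ n : ℕ, 0 < n ∧ ∃ g : ℍ → ℂ, IsMF Γ (n * k - 12) g ∧ f ^ n = Δ * g := by
  obtain ⟨M, hM, hMΓ⟩ := IsMF.exists_T_pow_mem Γ
  have hM' : (0 : ℝ) < M := by exact_mod_cast hM
  have hpow : IsMF Γ (M * k) (f ^ M) := hf.toIsMF.pow M
  refine ⟨M, hM, f ^ M / Δ, ⟨⟨?_, fun γ => ?_⟩, fun γ hγ => ?_⟩, ?_⟩
  · exact hpow.holo.div CuspForm.discriminant.holo' discriminant_ne_zero
  · have h1 : (f ^ M / Δ) ∣[(M * k - 12 : ℤ)] γ = (f ∣[k] γ) ^ M / Δ := by
      rw [div_slash_SL2, pow_slash_SL, disc_slash_twelve]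
    rw [h1, IsBoundedAtImInfty, BoundedAtFilter]
    have h2 : (f ∣[k] γ) =O[atImInfty] fun τ ↦ Real.exp (-2 * Real.pi * τ.im / M) :=
      (hf.zero_cusps γ).exp_decay_atImInfty hM' (IsMF.exists_periodic Γ rfl hf.toIsMF M hMΓ γ)
        (hf.toHB.slash γ).holo (hf.bdd γ)
    have h3 : (fun τ => (f ∣[k] γ) τ ^ M) =O[atImInfty]
        fun τ ↦ Real.exp (-2 * Real.pi * τ.im / M) ^ M := h2.pow M
    have h4 : (fun τ : ℍ ↦ Real.exp (-2 * Real.pi * τ.im / M) ^ M) =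
        fun τ => Real.exp (-2 * Real.pi * τ.im) := by
      funext τ
      rw [← Real.exp_nat_mul]
      congr 1
      field_simp
    rw [h4] at h3
    exact (div_isBoundedUnder_of_isBigO (h3.trans exp_isBigO_discriminant)).isBigO_one ℝ
  · rw [div_slash_SL2, hpow.slash γ hγ, disc_slash_twelve]
  · funext τ
    simp only [Pi.pow_apply, Pi.mul_apply, Pi.div_apply]
    exact (mul_div_cancel₀ _ (discriminant_ne_zero τ)).symm

end IsCF

lemma isCF_of_pow_eq {n : ℕ} (hn : 0 < n) (hf : IsMF Γ k f) (hg : IsMF Γ (n * k - 12) g)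
    (h : f ^ n = Δ * g) : IsCF Γ k f where
  toIsMF := hf
  zero_cusps γ := by
    have h1 : (f ∣[k] γ) ^ n = Δ * (g ∣[(n * k - 12 : ℤ)] γ) := by
      rw [← pow_slash_SL, h]
      have := mul_slash_SL2 12 (n * k - 12) γ Δ g
      rw [disc_slash_twelve, show (12 : ℤ) + (n * k - 12) = n * k by ring] at this
      exact this
    have h2 : IsZeroAtImInfty ((f ∣[k] γ) ^ n) := by
      rw [h1]
      have := discriminant_isZeroAtImInfty.mul_boundedAtFilter (hg.bdd γ)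
      exact this
    have h3 : Tendsto (fun τ => ‖(f ∣[k] γ) τ‖ ^ n) atImInfty (𝓝 0) := by
      have := h2.norm
      simpa using this
    rw [IsZeroAtImInfty, ZeroAtFilter, Metric.tendsto_nhds]
    intro ε hε
    rw [Metric.tendsto_nhds] at h3
    filter_upwards [h3 (ε ^ n) (pow_pos hε n)] with τ hτ
    rw [dist_zero_right, norm_pow, norm_norm] at hτ
    rw [dist_zero_right]
    exact lt_of_pow_lt_pow_left₀ n hε.le hτ

/-- Galois conjugates of cusp forms for `Γ₀(N)` exist. -/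
theorem exists_conj_cusp_Gamma0 (N : ℕ) [NeZero N] (σ : ℂ →+* ℂ)
    (hf : IsCF (CongruenceSubgroup.Gamma0 N) k f) :
    ∃ f' : ℍ → ℂ, IsCF (CongruenceSubgroup.Gamma0 N) k f' ∧ qe f' = PowerSeries.map σ (qe f) := by
  obtain ⟨n, hn, g, hg, hfg⟩ := hf.exists_pow_eq
  obtain ⟨f', hf', hqf⟩ := exists_conj_Gamma0 N σ hf.toIsMF
  obtain ⟨g', hg', hqg⟩ := exists_conj_Gamma0 N σ hg
  refine ⟨f', isCF_of_pow_eq hn hf' hg' ?_, hqf⟩
  have hT := T_mem_Gamma0 N
  rw [← ((hf'.qg hT).pow n).qe_inj (qg_disc.mul (hg'.qg hT)), (hf'.qg hT).qe_pow,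
    qg_disc.qe_mul (hg'.qg hT), hqf, hqg, ← map_pow, ← (hf.qg hT).qe_pow, hfg,
    qg_disc.qe_mul (hg.qg hT), map_mul]
  congr 1
  ext m
  obtain ⟨r, hr⟩ := isRat_qe_disc m
  rw [PowerSeries.coeff_map, hr, map_ratCast]

end

end Fermat.Agent.MFLib
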