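import Fermat.Agent.MFLib.AutC

set_option autoImplicit false

namespace Fermat.Agent.MFLib

noncomputable section

open Module

/-- Descent for finite dimensional spaces with a semilinear-stable system of functionals. -/
theorem span_rational {V : Type*} [AddCommGroup V] [Module ℂ V] (c : ℕ → V →ₗ[ℂ] ℂ) (B : ℕ)
    (hB : ∀ f, (∀ n ≤ B, c n f = 0) → f = 0)
    (hσ : ∀ (σ : ℂ →+* ℂ) (f : V), ∃ f' : V, ∀ n, c n f' = σ (c n f)) :
    Submodule.span ℂ {f : V | ∀ n, ∃ r : ℚ, c n f = r} = ⊤ := by
  classical
  have hfd : FiniteDimensional ℂ V := by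
    let e : V →ₗ[ℂ] (Fin (B + 1) → ℂ) := LinearMap.pi fun i => c i
    have he : Function.Injective e := by
      rw [← LinearMap.ker_eq_bot, LinearMap.ker_eq_bot']
      intro f hf
      exact hB f fun n hn => by
        have := congrFun hf ⟨n, Nat.lt_succ_of_le hn⟩
        simpa [e] using this
    exact Module.Finite.of_injective e he
  let φ : Fin (B + 1) → Dual ℂ V := fun i => c i
  have hspan : Submodule.span ℂ (Set.range φ) = ⊤ := by
    have h1 : (Submodule.span ℂ (Set.range φ)).dualCoannihilator = ⊥ := by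
      rw [eq_bot_iff]
      intro f hf
      rw [Submodule.mem_dualCoannihilator] at hf
      exact hB f fun n hn => hf (c n) (Submodule.subset_span ⟨⟨n, Nat.lt_succ_of_le hn⟩, rfl⟩)
    rw [← Subspace.dualCoannihilator_dualAnnihilator_eq (W := Submodule.span ℂ (Set.range φ)), h1,
      Submodule.dualAnnihilator_bot]
  obtain ⟨κ, a, ha, hspan', hli⟩ := exists_linearIndependent' ℂ φ
  rw [hspan] at hspan'
  have hκ : Fintype κ := Fintype.ofInjective a ha
  let b : Basis κ ℂ (Dual ℂ V) := Basis.mk hli hspan'.ge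
  let e : Basis κ ℂ V := b.dualBasis.map (evalEquiv ℂ V).symm
  have he : ∀ i j, c (a j) (e i) = if j = i then 1 else 0 := by
    intro i j
    have h1 : c (a j) (e i) = (evalEquiv ℂ V (e i)) (φ (a j)) := by
      simp [φ]
    have h2 : evalEquiv ℂ V (e i) = b.dualBasis i := by simp [e]
    have h3 : φ (a j) = b j := by simp [b]
    rw [h1, h2, h3, Basis.dualBasis_apply_self]
  have hsep : ∀ f g : V, (∀ j, c (a j) f = c (a j) g) → f = g := by
    intro f g h
    apply (evalEquiv ℂ V).injective
    apply b.ext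
    intro j
    have h3 : b j = φ (a j) := by simp [b]
    rw [h3]
    simpa [φ] using h j
  rw [eq_top_iff, ← e.span_eq]
  refine Submodule.span_mono ?_
  rintro _ ⟨i, rfl⟩ n
  by_contra hcon
  push Not at hcon
  obtain ⟨σ, hσn⟩ := exists_ringHom_ne (c n (e i)) hcon
  obtain ⟨f', hf'⟩ := hσ σ (e i)
  have : f' = e i := by
    apply hsep
    intro j
    rw [hf', he]
    split_ifs <;> simp
  apply hσn
  rw [← hf', this]

end

end Fermat.Agent.MFLib
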