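import Fermat.Agent.MFLib.BoundDen
import Fermat.Agent.MFLib.RatBasis
import Fermat.Prelude.Def_CuspForm_IntegralStructure
import Fermat.Prelude.Thm_ModularForm_sturm_bound_Gamma0

set_option autoImplicit false

open UpperHalfPlane ModularForm Complex Filter Topology Matrix.SpecialLinearGroup
open scoped MatrixGroups Manifold Real
open Finset

namespace Fermat.Agent.MFLib

noncomputable section

local notation "Γ₀(" N ")" => CongruenceSubgroup.Gamma0 N

variable (N : ℕ) [NeZero N] (k : ℤ)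

lemma qg_cusp {k : ℤ} (f : CuspForm Γ₀(N) k) : QG f :=
  (IsMF.of_class (Γ := Γ₀(N)) (k := k) f).qg (T_mem_Gamma0 N)

/-- coefficient functionals -/
def cuspCoeff (n : ℕ) : CuspForm Γ₀(N) k →ₗ[ℂ] ℂ where
  toFun f := (qe f).coeff n
  map_add' f g := by
    rw [CuspForm.coe_add, (qg_cusp N f).qe_add (qg_cusp N g), map_add]
  map_smul' c f := by
    rw [CuspForm.IsGLPos.coe_smul, (qg_cusp N f).qe_smul]
    simp

lemma cuspCoeff_apply (n : ℕ) (f : CuspForm Γ₀(N) k) : cuspCoeff N k n f = (qe f).coeff n := rfl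

theorem span_rational_cusp :
    Submodule.span ℂ {f : CuspForm Γ₀(N) k | ∀ n, ∃ r : ℚ, cuspCoeff N k n f = r} = ⊤ := by
  refine span_rational (cuspCoeff N k) ((k * Γ₀(N).index).toNat / 12) ?_ ?_
  · intro f hf
    have h1 := ModularForm.sturm_bound_Gamma0 N (IsMF.of_class (Γ := Γ₀(N)) (k := k) f).toForm
      (fun n hn => hf n hn)
    ext τ
    have := DFunLike.congr_fun h1 τ
    exact this
  · intro σ f
    obtain ⟨f', hf', hq⟩ := exists_conj_cusp_Gamma0 N σ (IsCF.of_class (Γ := Γ₀(N)) (k := k) f)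
    refine ⟨hf'.toCuspForm, fun n => ?_⟩
    rw [cuspCoeff_apply, cuspCoeff_apply, IsCF.coe_toCuspForm, hq, PowerSeries.coeff_map]

theorem hasIntegralStructure : CuspForm.HasIntegralStructure N k := by
  rw [CuspForm.HasIntegralStructure, eq_top_iff, ← span_rational_cusp N k, Submodule.span_le]
  intro f hf
  obtain ⟨m, hm, hint⟩ := BD_Gamma0 N (IsMF.of_class (Γ := Γ₀(N)) (k := k) f) hf
  have h1 : ((m : ℂ) • f) ∈ CuspForm.intLattice N k := by
    apply Submodule.subset_span
    intro n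
    obtain ⟨z, hz⟩ := hint n
    refine ⟨z, ?_⟩
    rw [← hz, ← (qg_cusp N f).qe_smul]
    rfl
  have h2 : f = (m : ℂ)⁻¹ • ((m : ℂ) • f) := by
    rw [smul_smul, inv_mul_cancel₀ (by exact_mod_cast hm), one_smul]
  rw [h2]
  exact Submodule.smul_mem _ _ (Submodule.subset_span h1)

end

end Fermat.Agent.MFLib
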