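import Fermat.Agent.MFLib.QExp

set_option autoImplicit false

open UpperHalfPlane ModularForm Complex Filter Topology Matrix.SpecialLinearGroup
open scoped MatrixGroups Manifold

namespace Fermat.Agent.MFLib

noncomputable section

variable {k l : ℤ} {f g : ℍ → ℂ}

local notation "Δ" => ModularForm.discriminant

lemma IsMF.of_SL {F : Type*} [FunLike F ℍ ℂ] [ModularFormClass F 𝒮ℒ k] (f : F) :
    IsMF ⊤ k f where
  slash γ _ := SlashInvariantFormClass.slash_action_eq f _ ⟨γ, rfl⟩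
  holo := ModularFormClass.holo f
  bdd γ := ModularFormClass.bdd_at_infty_slash f γ

/-- level one forms as `ModularForm 𝒮ℒ k` -/
def IsMF.toSL (h : IsMF ⊤ k f) : ModularForm 𝒮ℒ k where
  toFun := f
  slash_action_eq' := by rintro _ ⟨γ, rfl⟩; exact h.slash γ (Subgroup.mem_top _)
  holo' := h.holo
  bdd_at_cusps' hc := by
    rw [Subgroup.IsArithmetic.isCusp_iff_isCusp_SL2Z] at hc
    rw [OnePoint.isBoundedAt_iff_forall_SL2Z hc]
    exact fun γ _ => h.bdd γ

@[simp] lemma IsMF.coe_toSL (h : IsMF ⊤ k f) : ⇑(h.toSL) = f := rfl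

lemma isMF_disc : IsMF ⊤ 12 Δ := IsMF.of_SL CuspForm.discriminant

lemma disc_ne_zero : Δ ≠ (0 : ℍ → ℂ) := fun h => discriminant_ne_zero I (congrFun h I)

lemma isMF_E {k : ℕ} (hk : 3 ≤ k) : IsMF ⊤ k (E hk) := IsMF.of_SL (E hk)

/-- Induction principle for level one modular forms. -/
theorem levelOne_induction {P : ℤ → (ℍ → ℂ) → Prop} (h0 : ∀ k, P k 0)
    (hc : ∀ c : ℂ, P 0 (Function.const ℍ c))
    (hstep : ∀ (k : ℕ) (hk : 3 ≤ k) (_ : Even k) (c : ℂ) (g : ℍ → ℂ), IsMF ⊤ ((k : ℤ) - 12) g →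
      P ((k : ℤ) - 12) g → P k (c • ⇑(E hk) + Δ * g)) :
    ∀ (k : ℤ) (f : ℍ → ℂ), IsMF ⊤ k f → P k f := by
  have key : ∀ (n : ℕ) (k : ℤ), k.toNat = n → ∀ f : ℍ → ℂ, IsMF ⊤ k f → P k f := by
    intro n
    induction n using Nat.strong_induction_on with
    | _ n ih =>
    intro k hk f hf
    rcases lt_or_ge k 0 with hneg | hnn
    · have : f = 0 := ModularFormClass.levelOne_neg_weight_eq_zero hneg hf.toSL
      rw [this]; exact h0 k
    obtain ⟨m, rfl⟩ := Int.eq_ofNat_of_zero_le hnn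
    rcases Nat.even_or_odd m with hev | hodd
    swap
    · have h1 : hf.toSL = 0 := ModularForm.levelOne_odd_weight_eq_zero (by exact_mod_cast hodd) _
      have : f = 0 := by
        have := congrArg (fun F : ModularForm 𝒮ℒ (m : ℤ) => (F : ℍ → ℂ)) h1
        simpa using this
      rw [this]; exact h0 _
    rcases Nat.lt_or_ge m 3 with hlt | hge
    · interval_cases m
      · obtain ⟨c, hc'⟩ := ModularFormClass.levelOne_weight_zero_const (hf.toSL (k := 0))
        rw [IsMF.coe_toSL] at hc'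
        rw [hc']; exact hc c
      · exact absurd hev (by decide)
      · have h1 : hf.toSL = 0 :=
          rank_zero_iff_forall_zero.mp ModularForm.levelOne_weight_two_rank_zero (hf.toSL)
        have : f = 0 := by
          have := congrArg (fun F : ModularForm 𝒮ℒ (2 : ℤ) => (F : ℍ → ℂ)) h1
          simpa using this
        rw [this]; exact h0 _
    · -- the main case
      set F : ModularForm 𝒮ℒ (m : ℤ) := hf.toSL with hF
      set c : ℂ := (qExpansion 1 F).coeff 0 with hcdef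
      have hcusp := ModularForm.sub_smul_isCuspForm F (E hge)
        (EisensteinSeries.E_qExpansion_coeff_zero hge hev)
      rw [ModularForm.isCuspForm_iff_coeffZero_eq_zero] at hcusp
      set G := ModularForm.toCuspForm _ hcusp with hG
      set g : ModularForm 𝒮ℒ ((m : ℤ) - 12) := CuspForm.discriminantEquiv G with hg
      have h1 : f = c • ⇑(E hge) + Δ * ⇑g := by
        have h2 := ModularForm.discriminant_mul_discriminantEquiv G
        rw [← hg] at h2
        rw [h2]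
        ext z
        simp [hG, hF, c]
      rw [h1]
      have hgMF : IsMF ⊤ ((m : ℤ) - 12) g := IsMF.of_SL g
      refine hstep m hge hev c g hgMF ?_
      rcases Nat.lt_or_ge m 12 with h12 | h12
      · have : (g : ℍ → ℂ) = 0 :=
          ModularFormClass.levelOne_neg_weight_eq_zero (by omega) g
        rw [this]; exact h0 _
      · refine ih (m - 12) ?_ ((m : ℤ) - 12) (by omega) g hgMF
        have : (m : ℤ).toNat = n := hk
        simp only [Int.toNat_natCast] at this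
        omega
  intro k f hf
  exact key _ k rfl f hf

lemma isRat_qe_E {k : ℕ} (hk : 3 ≤ k) (hk2 : Even k) : IsRat (qe (E hk)) := by
  intro n
  refine ⟨if n = 0 then 1 else -(2 * k / bernoulli k) * (ArithmeticFunction.sigma (k - 1) n), ?_⟩
  rw [qe, EisensteinSeries.E_qExpansion_coeff hk hk2]
  split_ifs <;> simp

lemma exists_isInt_qe_E {k : ℕ} (hk : 3 ≤ k) (hk2 : Even k) :
    ∃ m : ℕ, m ≠ 0 ∧ IsInt ((m : ℂ) • qe (E hk)) := by
  set r : ℚ := -(2 * k / bernoulli k) with hr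
  refine ⟨r.den, r.den_nz, fun n => ?_⟩
  refine ⟨if n = 0 then r.den else r.num * (ArithmeticFunction.sigma (k - 1) n), ?_⟩
  rw [PowerSeries.coeff_smul, qe, EisensteinSeries.E_qExpansion_coeff hk hk2]
  split_ifs with h
  · simp
  · rw [smul_eq_mul]
    push_cast
    rw [← mul_assoc]
    congr 1
    have h1 : (r : ℂ) = -(2 * k / bernoulli k) := by rw [hr]; push_cast; rfl
    rw [← h1]
    have h2 : ((r.den : ℚ) : ℂ) * ((r : ℚ) : ℂ) = ((r.num : ℚ) : ℂ) := by
      rw [← Rat.cast_mul, Rat.den_mul_eq_num]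
    simpa using h2

lemma disc_eq : (Δ : ℍ → ℂ) = (1 / 1728 : ℂ) • ((⇑E₄) ^ 3 - (⇑E₆) ^ 2) := by
  ext z
  rw [ModularForm.discriminant_eq_E₄_cube_sub_E₆_sq]
  simp; ring

lemma qg_E4 : QG E₄ := (IsMF.of_SL E₄).qg_top
lemma qg_E6 : QG E₆ := (IsMF.of_SL E₆).qg_top
lemma qg_disc : QG Δ := isMF_disc.qg_top

lemma isRat_qe_disc : IsRat (qe Δ) := by
  have h4 : IsRat (qe E₄) := isRat_qe_E _ (by decide)
  have h6 : IsRat (qe E₆) := isRat_qe_E _ (by decide)
  rw [disc_eq, QG.qe_smul _ ((qg_E4.pow 3).sub (qg_E6.pow 2)), (qg_E4.pow 3).qe_sub (qg_E6.pow 2),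
    qg_E4.qe_pow, qg_E6.qe_pow]
  have := IsRat.smul (1 / 1728) ((h4.pow 3).sub (h6.pow 2))
  simpa using this

lemma exists_isInt_qe_disc : ∃ m : ℕ, m ≠ 0 ∧ IsInt ((m : ℂ) • qe Δ) := by
  obtain ⟨m4, hm4, h4⟩ := exists_isInt_qe_E (k := 4) (by norm_num) (by decide)
  obtain ⟨m6, hm6, h6⟩ := exists_isInt_qe_E (k := 6) (by norm_num) (by decide)
  refine ⟨1728 * m4 ^ 3 * m6 ^ 2, by positivity, ?_⟩
  rw [disc_eq, QG.qe_smul _ ((qg_E4.pow 3).sub (qg_E6.pow 2)), (qg_E4.pow 3).qe_sub (qg_E6.pow 2),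
    qg_E4.qe_pow, qg_E6.qe_pow]
  have h : ((1728 * m4 ^ 3 * m6 ^ 2 : ℕ) : ℂ) • (1 / 1728 : ℂ) • (qe E₄ ^ 3 - qe E₆ ^ 2) =
      ((m6 ^ 2 : ℕ) : ℤ) • (((m4 : ℂ) • qe E₄) ^ 3) - ((m4 ^ 3 : ℕ) : ℤ) • (((m6 : ℂ) • qe E₆) ^ 2) := by
    rw [smul_pow, smul_pow, smul_smul, smul_sub]
    simp only [← Int.cast_smul_eq_zsmul ℂ, smul_smul]
    push_cast
    congr 2 <;> ring
  rw [h]
  simp only [← Int.cast_smul_eq_zsmul ℂ]
  exact (IsInt.smul _ (h4.pow 3)).sub (IsInt.smul _ (h6.pow 2))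

/-- level one forms are stable under coefficientwise `ℚ`-linear maps -/
theorem exists_mapL_levelOne (lam : ℂ →ₗ[ℚ] ℂ) (k : ℤ) (f : ℍ → ℂ) (hf : IsMF ⊤ k f) :
    ∃ f' : ℍ → ℂ, IsMF ⊤ k f' ∧ qe f' = mapL lam (qe f) := by
  revert k f
  apply levelOne_induction
  · intro k
    refine ⟨0, IsMF.zero, ?_⟩
    rw [qe, qExpansion_zero, mapL_zero]
  · intro c
    have h1 : ∀ c : ℂ, (Function.const ℍ c) = c • (1 : ℍ → ℂ) := by
      intro c; ext z; simp
    refine ⟨Function.const ℍ (lam c), IsMF.const _, ?_⟩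
    rw [h1, h1, QG.one.qe_smul, QG.one.qe_smul, qe, qExpansion_one, mapL_smul_of_isRat _ IsRat.one]
  · rintro k hk hk2 c g hg ⟨g', hg', hg'q⟩
    refine ⟨(lam c) • ⇑(E hk) + Δ * g', ?_, ?_⟩
    · exact ((isMF_E hk).smul _).add ((isMF_disc.mul hg').congr_weight (by ring))
    · have hE := (isMF_E hk).qg_top
      rw [(hE.smul _).qe_add (qg_disc.mul hg'.qg_top), (hE.smul _).qe_add (qg_disc.mul hg.qg_top),
        hE.qe_smul, hE.qe_smul, qg_disc.qe_mul hg'.qg_top, qg_disc.qe_mul hg.qg_top, mapL_add,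
        mapL_smul_of_isRat _ (isRat_qe_E hk hk2), mapL_mul_of_isRat _ isRat_qe_disc, hg'q]

lemma qe_disc_ne_zero : qe Δ ≠ 0 := by
  rw [Ne, qg_disc.qe_eq_zero]
  exact disc_ne_zero

/-- rational level one forms have bounded denominators -/
theorem exists_isInt_levelOne (k : ℤ) (f : ℍ → ℂ) (hf : IsMF ⊤ k f) :
    IsRat (qe f) → ∃ m : ℕ, m ≠ 0 ∧ IsInt ((m : ℂ) • qe f) := by
  revert k f
  apply levelOne_induction
  · intro k _
    refine ⟨1, one_ne_zero, ?_⟩
    rw [qe, qExpansion_zero, smul_zero]; exact IsInt.zero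
  · intro c h
    have h1 : (Function.const ℍ c) = c • (1 : ℍ → ℂ) := by
      ext z; simp
    rw [h1, QG.one.qe_smul, qe, qExpansion_one] at h ⊢
    obtain ⟨r, hr⟩ := h 0
    simp only [PowerSeries.coeff_smul, PowerSeries.coeff_zero_one, smul_eq_mul, mul_one] at hr
    refine ⟨r.den, r.den_nz, ?_⟩
    have h2 : ((r.den : ℂ) * c) = (r.num : ℂ) := by
      rw [hr]
      have h2 : ((r.den : ℚ) : ℂ) * ((r : ℚ) : ℂ) = ((r.num : ℚ) : ℂ) := by
        rw [← Rat.cast_mul, Rat.den_mul_eq_num]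
      simpa using h2
    rw [smul_smul, h2]
    exact IsInt.smul _ IsInt.one
  · intro k hk hk2 c g hg ih h
    have hE := (isMF_E hk).qg_top
    rw [(hE.smul _).qe_add (qg_disc.mul hg.qg_top), hE.qe_smul, qg_disc.qe_mul hg.qg_top] at h ⊢
    obtain ⟨r, hr⟩ := h 0
    have hΔ0 : (qe Δ).coeff 0 = 0 :=
      CuspFormClass.qExpansion_coeff_zero CuspForm.discriminant one_pos one_mem_strictPeriods_SL
    have hE0 : (qe (E hk)).coeff 0 = 1 := EisensteinSeries.E_qExpansion_coeff_zero hk hk2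
    have hcr : c = r := by
      have h5 : (qe Δ * qe g).coeff 0 = 0 := by
        simp only [PowerSeries.coeff_zero_eq_constantCoeff, map_mul] at hΔ0 ⊢; rw [hΔ0, zero_mul]
      rwa [map_add, PowerSeries.coeff_smul, hE0, smul_eq_mul, mul_one, h5, add_zero] at hr
    have hgrat : IsRat (qe g) := by
      obtain ⟨lam, h1, h2⟩ := exists_retraction
      rw [isRat_iff_mapL lam h1 h2] at h ⊢
      rw [mapL_add, mapL_mul_of_isRat _ isRat_qe_disc, mapL_smul_of_isRat _ (isRat_qe_E hk hk2),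
        hcr, h2] at h
      exact mul_left_cancel₀ qe_disc_ne_zero (add_left_cancel h)
    obtain ⟨m1, hm1, hi1⟩ := ih hgrat
    obtain ⟨m2, hm2, hi2⟩ := exists_isInt_qe_disc
    obtain ⟨m3, hm3, hi3⟩ := exists_isInt_qe_E hk hk2
    refine ⟨r.den * m3 * m1 * m2, by
      have := r.den_nz
      positivity, ?_⟩
    have h4 : (((r.den * m3 * m1 * m2 : ℕ) : ℂ) • (c • qe (E hk) + qe Δ * qe g)) =
        ((r.num * m1 * m2 : ℤ) : ℂ) • ((m3 : ℂ) • qe (E hk)) +
          ((r.den * m3 : ℤ) : ℂ) • (((m2 : ℂ) • qe Δ) * ((m1 : ℂ) • qe g)) := by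
      have h2 : ((r.den : ℂ) * c) = (r.num : ℂ) := by
        rw [hcr]
        have h2 : ((r.den : ℚ) : ℂ) * ((r : ℚ) : ℂ) = ((r.num : ℚ) : ℂ) := by
          rw [← Rat.cast_mul, Rat.den_mul_eq_num]
        simpa using h2
      rw [smul_add, smul_smul, smul_smul, smul_mul_smul_comm, smul_smul]
      push_cast
      rw [← h2]
      congr 2 <;> ring
    rw [h4]
    exact (IsInt.smul _ hi3).add (IsInt.smul _ (hi2.mul hi1))

end

end Fermat.Agent.MFLib
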