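import Fermat.Agent.MFLib.Basic

set_option autoImplicit false

open UpperHalfPlane ModularForm Complex Filter Topology Matrix.SpecialLinearGroup
open scoped MatrixGroups Manifold

namespace Fermat.Agent.MFLib

noncomputable section

open Finset Polynomial

section Algebra

variable {Q R : Type*} [Fintype Q] [DecidableEq Q] [CommRing R] [IsDomain R]

/-- coefficient `i` of `∏ (X - a q)` as an (alternating) elementary symmetric function. -/
def cpc (a : Q → R) (i : ℕ) : R :=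
  (-1) ^ (Fintype.card Q - i) * ∑ s ∈ powersetCard (Fintype.card Q - i) (univ : Finset Q), ∏ q ∈ s, a q

lemma coeff_prod_X_sub_C (a : Q → R) {i : ℕ} (hi : i ≤ Fintype.card Q) :
    (∏ q, (X - C (a q))).coeff i = cpc a i := by
  have h1 : (∏ q, (X - C (a q))) = (((univ : Finset Q).val.map a).map fun t => X - C t).prod := by
    rw [Multiset.map_map]; rfl
  rw [h1, Multiset.prod_X_sub_C_coeff _ (by simpa using hi), Finset.esymm_map_val]
  simp [cpc]

lemma natDegree_prodXC (a : Q → R) : (∏ q, (X - C (a q))).natDegree = Fintype.card Q := by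
  simp [Polynomial.natDegree_prod_of_monic _ _ (fun q _ => monic_X_sub_C (a q))]

/-- Cayley-Hamilton type identity. -/
lemma sum_cpc_mul_pow (a : Q → R) (q₀ : Q) :
    ∑ i ∈ range (Fintype.card Q + 1), cpc a i * a q₀ ^ i = 0 := by
  have h1 : (∏ q, (X - C (a q))).eval (a q₀) = 0 := by
    rw [eval_prod]
    exact Finset.prod_eq_zero (mem_univ q₀) (by simp)
  rw [eval_eq_sum_range, natDegree_prodXC] at h1
  rw [← h1]
  refine Finset.sum_congr rfl fun i hi => ?_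
  rw [coeff_prod_X_sub_C a (by simpa [Nat.lt_succ_iff] using hi)]

lemma cpc_card (a : Q → R) : cpc a (Fintype.card Q) = 1 := by
  simp [cpc]

lemma prod_divByMonic (a : Q → R) (q : Q) :
    (∏ q, (X - C (a q))) /ₘ (X - C (a q)) = ∏ δ ∈ univ.erase q, (X - C (a δ)) := by
  rw [← Finset.mul_prod_erase univ (fun q => X - C (a q)) (mem_univ q)]
  exact mul_divByMonic_cancel_left _ (monic_X_sub_C _)

/-- Lagrange interpolation identity. -/
lemma lagrange_identity (a b : Q → R) (q₀ : Q) :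
    b q₀ * ∏ δ ∈ univ.erase q₀, (a q₀ - a δ) =
      ∑ j ∈ range (Fintype.card Q), a q₀ ^ j *
        ∑ i ∈ Icc (j + 1) (Fintype.card Q), cpc a i * ∑ q, b q * a q ^ (i - (j + 1)) := by
  have h1 : ∀ q, (∏ δ ∈ univ.erase q, (a q₀ - a δ)) =
      ∑ j ∈ range (Fintype.card Q), a q₀ ^ j *
        ∑ i ∈ Icc (j + 1) (Fintype.card Q), cpc a i * a q ^ (i - (j + 1)) := by
    intro q
    have h2 : (∏ δ ∈ univ.erase q, (a q₀ - a δ)) =
        eval (a q₀) (∏ δ ∈ univ.erase q, (X - C (a δ))) := by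
      rw [eval_prod]; simp
    rw [h2, ← prod_divByMonic, eval_eq_sum_range' (n := Fintype.card Q)]
    · refine Finset.sum_congr rfl fun j hj => ?_
      rw [mul_comm, coeff_divByMonic_X_sub_C, natDegree_prodXC]
      congr 1
      refine Finset.sum_congr rfl fun i hi => ?_
      rw [coeff_prod_X_sub_C a (Finset.mem_Icc.mp hi).2, mul_comm]
    · rw [natDegree_divByMonic _ (monic_X_sub_C _), natDegree_prodXC, natDegree_X_sub_C]
      exact Nat.sub_lt (Fintype.card_pos_iff.mpr ⟨q₀⟩) one_pos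
  have h3 : ∑ q, b q * (∏ δ ∈ univ.erase q, (a q₀ - a δ)) =
      b q₀ * ∏ δ ∈ univ.erase q₀, (a q₀ - a δ) := by
    refine Finset.sum_eq_single q₀ (fun q _ hq => ?_) (fun h => absurd (mem_univ q₀) h)
    rw [Finset.prod_eq_zero (Finset.mem_erase.mpr ⟨Ne.symm hq, mem_univ q₀⟩) (by simp), mul_zero]
  rw [← h3]
  simp_rw [h1, Finset.mul_sum]
  rw [Finset.sum_comm]
  refine Finset.sum_congr rfl fun j _ => ?_
  rw [Finset.sum_comm]
  refine Finset.sum_congr rfl fun i _ => ?_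
  refine Finset.sum_congr rfl fun q _ => ?_
  ring

end Algebra

variable {Γ : Subgroup SL(2, ℤ)} {k l : ℤ} {f g : ℍ → ℂ}

/-- The conjugates of a function, indexed by `SL(2,ℤ) ⧸ Γ`. -/
def conj (Γ : Subgroup SL(2, ℤ)) (k : ℤ) (f : ℍ → ℂ) (q : SL(2, ℤ) ⧸ Γ) : ℍ → ℂ :=
  f ∣[k] (q.out)⁻¹

lemma conj_mk (hf : IsMF Γ k f) (g : SL(2, ℤ)) :
    conj Γ k f (g : SL(2, ℤ) ⧸ Γ) = f ∣[k] g⁻¹ := by
  obtain ⟨h, hh⟩ := QuotientGroup.mk_out_eq_mul Γ g
  rw [conj, hh, mul_inv_rev, SlashAction.slash_mul, hf.slash _ (Γ.inv_mem h.2)]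

lemma conj_one (hf : IsMF Γ k f) : conj Γ k f ((1 : SL(2, ℤ)) : SL(2, ℤ) ⧸ Γ) = f := by
  rw [conj_mk hf, inv_one, SlashAction.slash_one]

lemma conj_slash (hf : IsMF Γ k f) (q : SL(2, ℤ) ⧸ Γ) (h : SL(2, ℤ)) :
    conj Γ k f q ∣[k] h = conj Γ k f (h⁻¹ • q) := by
  induction q using QuotientGroup.induction_on with
  | H g =>
    rw [conj_mk hf, ← SlashAction.slash_mul]
    have : h⁻¹ • (g : SL(2, ℤ) ⧸ Γ) = ((h⁻¹ * g : SL(2, ℤ)) : SL(2, ℤ) ⧸ Γ) := rfl
    rw [this, conj_mk hf, mul_inv_rev, inv_inv]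

lemma HB.conj (hf : HB k f) (q : SL(2, ℤ) ⧸ Γ) : HB k (conj Γ k f q) := hf.slash _

lemma conj_mul (hf : IsMF Γ k f) (hg : IsMF Γ l g) (q : SL(2, ℤ) ⧸ Γ) :
    conj Γ (k + l) (f * g) q = conj Γ k f q * conj Γ l g q := by
  rw [conj, mul_slash_SL2]; rfl

lemma conj_pow (n : ℕ) (q : SL(2, ℤ) ⧸ Γ) :
    conj Γ (n * k) (f ^ n) q = conj Γ k f q ^ n := by
  rw [conj, pow_slash_SL]; rfl

section finite

variable [Γ.FiniteIndex]

instance : Fintype (SL(2, ℤ) ⧸ Γ) := Fintype.ofFinite _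

instance : DecidableEq (SL(2, ℤ) ⧸ Γ) := Classical.decEq _

/-- the index -/
abbrev idx (Γ : Subgroup SL(2, ℤ)) [Γ.FiniteIndex] : ℕ := Fintype.card (SL(2, ℤ) ⧸ Γ)

/-- sums over equivariant families are level one forms -/
lemma isMF_sum_of_equivariant {Φ : (SL(2, ℤ) ⧸ Γ) → ℍ → ℂ} (hΦ : ∀ q, HB k (Φ q))
    (h : ∀ q (γ : SL(2, ℤ)), Φ q ∣[k] γ = Φ (γ⁻¹ • q)) : IsMF ⊤ k (∑ q, Φ q) where
  toHB := HB.sum fun q _ => hΦ q
  slash γ _ := by
    rw [sum_slash_SL]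
    simp_rw [h]
    exact Equiv.sum_comp (MulAction.toPerm γ⁻¹) Φ

/-- trace of a modular form -/
def tr (Γ : Subgroup SL(2, ℤ)) [Γ.FiniteIndex] (k : ℤ) (f : ℍ → ℂ) : ℍ → ℂ := ∑ q, conj Γ k f q

lemma isMF_tr (hf : IsMF Γ k f) : IsMF ⊤ k (tr Γ k f) :=
  isMF_sum_of_equivariant (fun q => hf.toHB.conj q) (conj_slash hf)

/-- elementary symmetric functions of the conjugates -/
def esym (Γ : Subgroup SL(2, ℤ)) [Γ.FiniteIndex] (k : ℤ) (f : ℍ → ℂ) (i : ℕ) : ℍ → ℂ :=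
  ∑ s ∈ powersetCard i (univ : Finset (SL(2, ℤ) ⧸ Γ)), ∏ q ∈ s, conj Γ k f q

lemma isMF_esym (hf : IsMF Γ k f) (i : ℕ) : IsMF ⊤ (i * k) (esym Γ k f i) where
  toHB := by
    refine HB.sum fun s hs => ?_
    have := HB.prod (s := s) (F := conj Γ k f) (k := k) (fun q _ => hf.toHB.conj q)
    rwa [(mem_powersetCard.mp hs).2] at this
  slash γ _ := by
    rw [esym, sum_slash_SL]
    have h1 : ∀ s ∈ powersetCard i (univ : Finset (SL(2, ℤ) ⧸ Γ)),
        (∏ q ∈ s, conj Γ k f q) ∣[(i * k : ℤ)] γ =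
          ∏ q ∈ s.map (MulAction.toPerm γ⁻¹).toEmbedding, conj Γ k f q := by
      intro s hs
      have h2 := prod_slash_SL s (conj Γ k f) k γ
      rw [(mem_powersetCard.mp hs).2] at h2
      rw [h2, Finset.prod_map]
      exact Finset.prod_congr rfl fun q _ => conj_slash hf q γ
    rw [Finset.sum_congr rfl h1]
    refine Finset.sum_nbij' (fun s => s.map (MulAction.toPerm γ⁻¹).toEmbedding)
      (fun s => s.map (MulAction.toPerm γ).toEmbedding) ?_ ?_ ?_ ?_ ?_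
    · intro s hs
      simp only [mem_powersetCard, subset_univ, true_and, card_map] at hs ⊢
      exact hs
    · intro s hs
      simp only [mem_powersetCard, subset_univ, true_and, card_map] at hs ⊢
      exact hs
    · intro s _
      ext x
      simp [Finset.mem_map]
    · intro s _
      ext x
      simp [Finset.mem_map]
    · intro s _
      rfl

/-- coefficients of the characteristic polynomial of the conjugates -/
def cpf (Γ : Subgroup SL(2, ℤ)) [Γ.FiniteIndex] (k : ℤ) (f : ℍ → ℂ) (i : ℕ) : ℍ → ℂ :=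
  (-1 : ℂ) ^ (idx Γ - i) • esym Γ k f (idx Γ - i)

lemma isMF_cpf (hf : IsMF Γ k f) (i : ℕ) : IsMF ⊤ ((idx Γ - i : ℕ) * k) (cpf Γ k f i) :=
  (isMF_esym hf _).smul _

lemma cpf_apply (f : ℍ → ℂ) (i : ℕ) (τ : ℍ) :
    cpf Γ k f i τ = cpc (fun q => conj Γ k f q τ) i := by
  simp [cpf, cpc, esym, Finset.sum_apply, Finset.prod_apply]

lemma cpf_idx (f : ℍ → ℂ) : cpf Γ k f (idx Γ) = 1 := by
  ext τ
  rw [cpf_apply, cpc_card]; rfl

lemma charpoly_identity (hf : IsMF Γ k f) :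
    ∑ i ∈ range (idx Γ + 1), cpf Γ k f i * f ^ i = 0 := by
  ext τ
  have := sum_cpc_mul_pow (fun q => conj Γ k f q τ) ((1 : SL(2, ℤ)) : SL(2, ℤ) ⧸ Γ)
  simp only [conj_one hf] at this
  simp only [Finset.sum_apply, Pi.mul_apply, Pi.pow_apply, cpf_apply, Pi.zero_apply]
  exact this

/-- the different of `x` -/
def diffl (Γ : Subgroup SL(2, ℤ)) [Γ.FiniteIndex] (l : ℤ) (x : ℍ → ℂ) : ℍ → ℂ :=
  ∏ δ ∈ univ.erase ((1 : SL(2, ℤ)) : SL(2, ℤ) ⧸ Γ), (x - conj Γ l x δ)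

lemma lagrange_form {x : ℍ → ℂ} (hf : IsMF Γ k f) (hx : IsMF Γ l x) :
    f * diffl Γ l x = ∑ j ∈ range (idx Γ), x ^ j *
      ∑ i ∈ Icc (j + 1) (idx Γ), cpf Γ l x i *
        tr Γ (k + (i - (j + 1) : ℕ) * l) (f * x ^ (i - (j + 1))) := by
  ext τ
  have := lagrange_identity (fun q => conj Γ l x q τ) (fun q => conj Γ k f q τ)
    ((1 : SL(2, ℤ)) : SL(2, ℤ) ⧸ Γ)
  simp only [conj_one hf, conj_one hx] at this
  simp only [Pi.mul_apply, diffl, Finset.prod_apply, Pi.sub_apply, Finset.sum_apply, Pi.pow_apply,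
    cpf_apply, tr]
  rw [this]
  refine Finset.sum_congr rfl fun j _ => ?_
  congr 1
  refine Finset.sum_congr rfl fun i _ => ?_
  congr 1
  refine Finset.sum_congr rfl fun q _ => ?_
  rw [conj_mul hf (hx.pow _), conj_pow]
  rfl

end finite

end

end Fermat.Agent.MFLib
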