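import Fermat.Agent.MFLib.DeltaN
import Fermat.Agent.MFLib.Esymm

set_option autoImplicit false

open UpperHalfPlane ModularForm Complex Filter Topology Matrix.SpecialLinearGroup
open scoped MatrixGroups Manifold Real

namespace Fermat.Agent.MFLib

noncomputable section

local notation "Δ" => ModularForm.discriminant

variable (N : ℕ) [NeZero N]

lemma T_mem_Gamma0 (N : ℕ) : ModularGroup.T ∈ CongruenceSubgroup.Gamma0 N := by
  rw [CongruenceSubgroup.Gamma0_mem]
  simp [ModularGroup.T]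

lemma coe_matN_smul (τ : ℍ) : ((matN N • τ : ℍ) : ℂ) = N * τ := by
  have hN : (0 : ℝ) < N := by exact_mod_cast Nat.pos_of_ne_zero (NeZero.ne N)
  have hdetM : (matN N).det.val = (N : ℝ) := by
    rw [Matrix.GeneralLinearGroup.val_det_apply, Matrix.det_fin_two]
    simp only [matN_apply]
    simp
  rw [UpperHalfPlane.coe_smul_of_det_pos (by rw [hdetM]; exact hN)]
  simp [num, denom, matN_apply]

lemma xN_apply (τ : ℍ) : xN N τ = (N : ℂ) ^ 11 * Δ (matN N • τ) := by
  have hN' : (0 : ℝ) < N := by exact_mod_cast Nat.pos_of_ne_zero (NeZero.ne N)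
  have hdetM : (matN N).det.val = (N : ℝ) := by
    rw [Matrix.GeneralLinearGroup.val_det_apply, Matrix.det_fin_two]
    simp only [matN_apply]
    simp
  have hdenM : denom (matN N) τ = 1 := by
    simp only [denom, matN_apply]; simp
  have hσM : UpperHalfPlane.σ (matN N) = ContinuousAlgEquiv.refl ℝ ℂ := by
    simp only [UpperHalfPlane.σ, hdetM, hN', ↓reduceIte]
  rw [xN, slash_apply, hdetM, hdenM, hσM, abs_of_pos hN']
  simp only [ContinuousAlgEquiv.coe_refl', id_eq, one_zpow, mul_one]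
  norm_num
  ring

lemma qParam_matN (τ : ℍ) :
    Function.Periodic.qParam (1 : ℝ) ((matN N • τ : ℍ) : ℂ) = Function.Periodic.qParam (1 : ℝ) τ ^ N := by
  rw [Function.Periodic.qParam, Function.Periodic.qParam, ← Complex.exp_nat_mul, coe_matN_smul]
  congr 1
  push_cast
  ring

lemma hasSum_xN (τ : ℍ) : HasSum (fun n : ℕ => (if N ∣ n then (N : ℂ) ^ 11 * (qe Δ).coeff (n / N) else 0) •
      Function.Periodic.qParam (1 : ℝ) τ ^ n) (xN N τ) := by
  have hN : N ≠ 0 := NeZero.ne N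
  have h1 := UpperHalfPlane.hasSum_qExpansion (h := 1) one_pos qg_disc.per qg_disc.holo qg_disc.bdd
    (matN N • τ)
  have h2 := h1.mul_left ((N : ℂ) ^ 11)
  rw [← xN_apply] at h2
  have hinj : Function.Injective (fun m : ℕ => N * m) := fun a b h =>
    Nat.eq_of_mul_eq_mul_left (Nat.pos_of_ne_zero hN) h
  refine (hinj.hasSum_iff ?_).mp ?_
  · intro x hx
    have : ¬ N ∣ x := fun ⟨m, hm⟩ => hx ⟨m, hm.symm⟩
    simp only [this, ↓reduceIte, zero_smul]
  · refine h2.congr_fun ?_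
    intro m
    simp only [Function.comp_apply, Nat.dvd_mul_right, ↓reduceIte, smul_eq_mul,
      Nat.mul_div_cancel_left m (Nat.pos_of_ne_zero hN)]
    rw [qParam_matN, ← pow_mul, mul_assoc]

lemma coeff_qe_xN (n : ℕ) : (qe (xN N)).coeff n =
    if N ∣ n then (N : ℂ) ^ 11 * (qe Δ).coeff (n / N) else 0 := by
  have hqg : QG (xN N) := (isMF_xN N).qg (T_mem_Gamma0 N)
  obtain ⟨c, hc⟩ : ∃ c : ℕ → ℂ, c = fun n => if N ∣ n then (N : ℂ) ^ 11 * (qe Δ).coeff (n / N) else 0 :=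
    ⟨_, rfl⟩
  have h1 : ∀ τ : ℍ, HasSum (fun n : ℕ => c n • Function.Periodic.qParam (1 : ℝ) τ ^ n)
      ((isMF_xN N).toForm τ) := by
    intro τ
    rw [hc]
    exact hasSum_xN N τ
  have h2 := UpperHalfPlane.qExpansion_coeff_unique ((isMF_xN N).toForm) (h := 1) one_pos
    hqg.analyticAt h1 n
  rw [hc] at h2
  exact h2.symm

lemma isRat_qe_xN : IsRat (qe (xN N)) := by
  intro n
  rw [coeff_qe_xN]
  obtain ⟨r, hr⟩ := isRat_qe_disc (n / N)
  refine ⟨if N ∣ n then (N : ℚ) ^ 11 * r else 0, ?_⟩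
  rw [hr]
  split_ifs <;> simp

lemma exists_isInt_qe_xN : ∃ m : ℕ, m ≠ 0 ∧ IsInt ((m : ℂ) • qe (xN N)) := by
  obtain ⟨m, hm, h⟩ := exists_isInt_qe_disc
  refine ⟨m, hm, fun n => ?_⟩
  obtain ⟨r, hr⟩ := h (n / N)
  rw [PowerSeries.coeff_smul, smul_eq_mul] at hr ⊢
  rw [coeff_qe_xN]
  refine ⟨if N ∣ n then (N : ℤ) ^ 11 * r else 0, ?_⟩
  split_ifs
  · push_cast
    rw [← hr]
    ring
  · simp

end

end Fermat.Agent.MFLib
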