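import Fermat.Agent.MFLib.PSInt
import Fermat.Agent.MFLib.Cusp

set_option autoImplicit false

open UpperHalfPlane ModularForm Complex Filter Topology Matrix.SpecialLinearGroup
open scoped MatrixGroups Manifold Real
open Finset

namespace Fermat.Agent.MFLib

noncomputable section

section general

variable {Γ : Subgroup SL(2, ℤ)} [Γ.FiniteIndex] {k l : ℤ} {f x : ℍ → ℂ}

lemma exists_BD_levelOne {lam : ℂ →ₗ[ℚ] ℂ} (hl1 : ∀ x : ℂ, ∃ r : ℚ, lam x = r) {g : ℍ → ℂ}
    (hg : IsMF ⊤ k g) : ∃ g' : ℍ → ℂ, IsMF ⊤ k g' ∧ qe g' = mapL lam (qe g) ∧ BD (qe g') := by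
  obtain ⟨g', hg', hq⟩ := exists_mapL_levelOne lam _ _ hg
  refine ⟨g', hg', hq, exists_isInt_levelOne _ _ hg' ?_⟩
  rw [hq]
  intro n
  rw [coeff_mapL]
  exact hl1 _

lemma BD_diffl_mul (hx : IsMF Γ l x) (hT : ModularGroup.T ∈ Γ)
    (hinj : Function.Injective (conj Γ l x)) (hrat : IsRat (qe x)) (hxBD : BD (qe x))
    (hf : IsMF Γ k f) (hfrat : IsRat (qe f)) : BD (qe (diffl Γ l x) * qe f) := by
  obtain ⟨lam, hl1, hl2⟩ := exists_retraction
  have hxq : QG x := hx.qg hT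
  have hfq : QG f := hf.qg hT
  have htr : ∀ m : ℕ, IsMF ⊤ (k + m * l) (tr Γ (k + m * l) (f * x ^ m)) := fun m =>
    isMF_tr (hf.mul (hx.pow m))
  choose t ht htq htBD using fun m : ℕ => exists_BD_levelOne hl1 (htr m)
  have hcBD : ∀ i ∈ range (idx Γ + 1), BD (qe (cpf Γ l x i)) := fun i hi =>
    exists_isInt_levelOne _ _ (isMF_cpf hx i) (isRat_cpf hx hT hinj hrat
      (Nat.lt_succ_iff.mp (Finset.mem_range.mp hi)))
  have hQ2 : ∀ j i : ℕ, QG (cpf Γ l x i * tr Γ (k + (i - (j + 1) : ℕ) * l) (f * x ^ (i - (j + 1)))) :=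
    fun j i => (isMF_cpf hx i).qg_top.mul (htr _).qg_top
  have hD := (isMF_diffl hx).qg hT
  have key := congrArg (fun g => mapL lam (qe g)) (lagrange_form hf hx)
  rw [hfq.qe_mul hD, mul_comm, (isRat_iff_mapL lam hl1 hl2 _).mp
    ((isRat_diffl hx hT hinj hrat).mul hfrat)] at key
  rw [key, QG.qe_sum fun j _ => (hxq.pow j).mul (QG.sum fun i _ => hQ2 j i), mapL_sum]
  refine BD.sum fun j hj => ?_
  rw [(hxq.pow j).qe_mul (QG.sum fun i _ => hQ2 j i), hxq.qe_pow, mapL_mul_of_isRat _ (hrat.pow j)]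
  refine (hxBD.pow j).mul ?_
  rw [QG.qe_sum fun i _ => hQ2 j i, mapL_sum]
  refine BD.sum fun i hi => ?_
  rw [(isMF_cpf hx i).qg_top.qe_mul (htr _).qg_top,
    mapL_mul_of_isRat _ (isRat_cpf hx hT hinj hrat (Finset.mem_Icc.mp hi).2), ← htq]
  exact (hcBD i (by simpa [Nat.lt_succ_iff] using (Finset.mem_Icc.mp hi).2)).mul (htBD _)

/-- Modular forms with rational coefficients have bounded denominators. -/
theorem BD_of_isRat (hx : IsMF Γ l x) (hT : ModularGroup.T ∈ Γ)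
    (hinj : Function.Injective (conj Γ l x)) (hrat : IsRat (qe x)) (hxBD : BD (qe x))
    (hf : IsMF Γ k f) (hfrat : IsRat (qe f)) : BD (qe f) := by
  obtain ⟨lam, hl1, hl2⟩ := exists_retraction
  have hfq : QG f := hf.qg hT
  set μ := idx Γ with hμ
  -- rational monic relation
  choose c hc hcq hcBD using fun i : ℕ => exists_BD_levelOne hl1 (isMF_cpf hf i)
  have h1 : ∑ i ∈ range (μ + 1), qe (c i) * qe f ^ i = 0 := by
    have h2 : mapL lam (qe (∑ i ∈ range (idx Γ + 1), cpf Γ k f i * f ^ i)) = 0 := by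
      rw [charpoly_identity hf, qe, qExpansion_zero, mapL_zero]
    rw [QG.qe_sum fun i _ => (isMF_cpf hf i).qg_top.mul (hfq.pow i), mapL_sum] at h2
    rw [← h2]
    refine Finset.sum_congr rfl fun i _ => ?_
    rw [(isMF_cpf hf i).qg_top.qe_mul (hfq.pow i), mul_comm (qe (cpf Γ k f i)), hfq.qe_pow,
      mapL_mul_of_isRat _ (hfrat.pow i), hcq, mul_comm]
  have hcμ : qe (c μ) = 1 := by
    rw [hcq, cpf_idx, qe, qExpansion_one, ← isRat_iff_mapL lam hl1 hl2]
    exact IsRat.one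
  rw [Finset.sum_range_succ, hcμ, one_mul] at h1
  obtain ⟨m, hm, hmc⟩ := exists_common_denom (range μ) (p := fun i => qe (c i)) (fun i _ => hcBD i)
  -- scaled form
  set F : PowerSeries ℂ := (m : ℂ) • qe f with hF
  set D := qe (diffl Γ l x) with hDdef
  have hD0 : D ≠ 0 := by
    rw [hDdef, Ne, ((isMF_diffl hx).qg hT).qe_eq_zero]
    exact diffl_ne_zero hx hinj
  have hFpow : ∀ i ∈ range μ, BD (D * F ^ i) := by
    intro i _
    have h2 : BD (D * qe (f ^ i)) := BD_diffl_mul hx hT hinj hrat hxBD (hf.pow i) (by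
      rw [hfq.qe_pow]; exact hfrat.pow i)
    have h3 : D * F ^ i = (((m ^ i : ℕ) : ℂ) • (1 : PowerSeries ℂ)) * (D * qe (f ^ i)) := by
      rw [hF, hfq.qe_pow, smul_pow]
      push_cast
      simp [mul_smul_comm, smul_mul_assoc]
    rw [h3]
    exact (IsInt.one.natsmul _).BD.mul h2
  obtain ⟨M, hM, hMF⟩ := exists_common_denom (range μ) hFpow
  have hP0 : (M : ℂ) • D ≠ 0 := smul_ne_zero (by exact_mod_cast hM) hD0
  have hrel : F ^ μ = - ∑ i ∈ range μ, (((m ^ (μ - 1 - i) : ℕ) : ℂ) • ((m : ℂ) • qe (c i))) * F ^ i := by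
    rw [eq_neg_iff_add_eq_zero]
    have h4 : F ^ μ = ((m : ℂ) ^ μ) • qe f ^ μ := by rw [hF, smul_pow]
    have h5 : ∀ i ∈ range μ, (((m ^ (μ - 1 - i) : ℕ) : ℂ) • ((m : ℂ) • qe (c i))) * F ^ i =
        ((m : ℂ) ^ μ) • (qe (c i) * qe f ^ i) := by
      intro i hi
      rw [hF, smul_pow, smul_smul, smul_mul_smul_comm]
      congr 1
      have := Finset.mem_range.mp hi
      push_cast
      rw [← pow_succ, ← pow_add]
      congr 1
      omega
    rw [Finset.sum_congr rfl h5, h4, ← Finset.smul_sum, ← smul_add, add_comm, h1, smul_zero]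
  have hall : ∀ n : ℕ, IsInt ((M : ℂ) • D * F ^ n) := by
    intro n
    induction n using Nat.strong_induction_on with
    | _ n ih =>
      rcases lt_or_ge n μ with hlt | hge
      · have := hMF n (Finset.mem_range.mpr hlt)
        rwa [smul_mul_assoc]
      · have h6 : F ^ n = F ^ μ * F ^ (n - μ) := by
          rw [← pow_add]; congr 1; omega
        rw [h6, hrel, neg_mul, mul_neg, Finset.sum_mul, Finset.mul_sum]
        refine (IsInt.sum fun i hi => ?_).neg
        have h7 : (M : ℂ) • D * ((((m ^ (μ - 1 - i) : ℕ) : ℂ) • ((m : ℂ) • qe (c i))) * F ^ i * F ^ (n - μ)) =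
            (((m ^ (μ - 1 - i) : ℕ) : ℂ) • ((m : ℂ) • qe (c i))) * ((M : ℂ) • D * F ^ (i + (n - μ))) := by
          rw [pow_add]; ring
        rw [h7]
        refine ((hmc i hi).natsmul _).mul (ih _ ?_)
        have := Finset.mem_range.mp hi
        omega
  have hPint : IsInt ((M : ℂ) • D) := by
    have := hall 0
    simpa using this
  exact ⟨m, hm, isInt_of_mul_pow hPint hP0 (by
    have := hfrat.smul (m : ℚ)
    simpa using this) hall⟩

end general

/-- Rational modular forms for `Γ₀(N)` have bounded denominators. -/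
theorem BD_Gamma0 (N : ℕ) [NeZero N] {k : ℤ} {f : ℍ → ℂ}
    (hf : IsMF (CongruenceSubgroup.Gamma0 N) k f) (hfrat : IsRat (qe f)) : BD (qe f) :=
  BD_of_isRat (isMF_xN N) (T_mem_Gamma0 N) (conj_xN_injective N) (isRat_qe_xN N)
    (exists_isInt_qe_xN N) hf hfrat

end

end Fermat.Agent.MFLib
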