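import Mathlib

set_option autoImplicit false

open Cardinal

namespace Fermat.Agent.MFLib

noncomputable section

lemma extend_aux (R S M : Type) [CommRing R] [IsDomain R] [CommRing S] [IsDomain S] [Field M]
    [IsAlgClosed M] [iS : Algebra R S] [iM : Algebra R M] (hS : Function.Injective (algebraMap R S))
    (hM : Function.Injective (algebraMap R M))
    [Algebra.IsAlgebraic R S] : ∃ σ : S →+* M, ∀ r : R, σ (algebraMap R S r) = algebraMap R M r := by
  have : Module.IsTorsionFree R S := Module.isTorsionFree_iff_algebraMap_injective.mpr hS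
  have : Module.IsTorsionFree R M := Module.isTorsionFree_iff_algebraMap_injective.mpr hM
  exact ⟨(IsAlgClosed.lift (R := R) (S := S) (M := M)).toRingHom,
    fun r => (IsAlgClosed.lift (R := R) (S := S) (M := M)).commutes r⟩

lemma extend_hom {R : Type} [CommRing R] [IsDomain R] [iS : Algebra R ℂ]
    (hS : Function.Injective (algebraMap R ℂ))
    [Algebra.IsAlgebraic R ℂ] (φ : R →+* ℂ) (hφ : Function.Injective φ) :
    ∃ σ : ℂ →+* ℂ, ∀ r : R, σ (algebraMap R ℂ r) = φ r :=
  @extend_aux R ℂ ℂ _ _ _ _ _ _ iS φ.toAlgebra hS hφ _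

/-- An endomorphism of a subfield extends to `ℂ`. -/
lemma extend_of_subfield (K : Type) [Field K] [Algebra K ℂ] (τ : K →+* K) :
    ∃ σ : ℂ →+* ℂ, ∀ x : K, σ (algebraMap K ℂ x) = algebraMap K ℂ (τ x) := by
  classical
  obtain ⟨B, hB⟩ := exists_isTranscendenceBasis K ℂ
  let v : B → ℂ := fun b => b
  let R := Algebra.adjoin K (Set.range v)
  have : Algebra.IsAlgebraic R ℂ := hB.isAlgebraic
  let φ : R →+* ℂ := ((MvPolynomial.aeval (R := K) v).toRingHom.comp
    (MvPolynomial.map τ)).comp hB.1.aevalEquiv.symm.toRingEquiv.toRingHom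
  have hφ : Function.Injective φ := by
    refine Function.Injective.comp (g := (MvPolynomial.aeval (R := K) v).toRingHom.comp
      (MvPolynomial.map τ)) ?_ hB.1.aevalEquiv.symm.injective
    refine Function.Injective.comp (g := (MvPolynomial.aeval (R := K) v).toRingHom) ?_
      (MvPolynomial.map_injective _ τ.injective)
    exact algebraicIndependent_iff_injective_aeval.mp hB.1
  obtain ⟨σ, hσ⟩ := extend_hom (R := R) (by exact Subtype.val_injective) φ hφ
  refine ⟨σ, fun x => ?_⟩
  have h2 := hσ (algebraMap K R x)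
  have h3 : algebraMap R ℂ (algebraMap K R x) = algebraMap K ℂ x := rfl
  have h4 : φ (algebraMap K R x) = algebraMap K ℂ (τ x) := by
    have : hB.1.aevalEquiv.symm (algebraMap K R x) = MvPolynomial.C x := by
      rw [AlgEquiv.commutes]; rfl
    change (MvPolynomial.aeval (R := K) v) ((MvPolynomial.map τ)
      (hB.1.aevalEquiv.symm (algebraMap K R x))) = _
    rw [this]
    simp
  rw [h3, h4] at h2
  exact h2

lemma exists_ringHom_closure_ne (F E : Type) [Field F] [Field E] [Algebra F E] [IsAlgClosed E]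
    [CharZero F] (a : E) (ha : a ∉ Set.range (algebraMap F E)) (halg : IsAlgebraic F a) :
    ∃ (τ : algebraicClosure F E →+* algebraicClosure F E) (a' : algebraicClosure F E),
      (a' : E) = a ∧ τ a' ≠ a' := by
  have haK : a ∈ algebraicClosure F E := (mem_algebraicClosure_iff).mpr halg
  let a' : algebraicClosure F E := ⟨a, haK⟩
  have h1 : a' ∉ (⊥ : Subalgebra F (algebraicClosure F E)) := by
    intro h
    obtain ⟨r, hr⟩ := Algebra.mem_bot.mp h
    apply ha
    have := congrArg (fun z : algebraicClosure F E => (z : E)) hr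
    exact ⟨r, this⟩
  have hint : IsIntegral F a' := by
    have : IsAlgebraic F a' := Algebra.IsAlgebraic.isAlgebraic a'
    exact this.isIntegral
  have hsep : IsSeparable F a' := by
    rw [IsSeparable]
    exact (minpoly.irreducible hint).separable
  have hAC : IsAlgClosed (algebraicClosure F E) := IsAlgClosure.isAlgClosed F
  rw [notMem_iff_exists_ne_and_isConjRoot hsep (IsAlgClosed.splits _)] at h1
  obtain ⟨b, hb, hconj⟩ := h1
  have : Normal F (algebraicClosure F E) := IsAlgClosure.normal F _
  obtain ⟨τ, hτ⟩ := hconj.exists_algEquiv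
  refine ⟨τ.symm.toRingEquiv.toRingHom, a', rfl, fun h => ?_⟩
  have h4 : τ.symm a' = b := by
    rw [AlgEquiv.symm_apply_eq]; exact hτ.symm
  apply hb
  exact (h4.symm.trans h).symm

/-- Every complex number which is not rational is moved by a ring endomorphism of `ℂ`. -/
theorem exists_ringHom_ne (a : ℂ) (ha : ∀ r : ℚ, a ≠ r) : ∃ σ : ℂ →+* ℂ, σ a ≠ a := by
  classical
  by_cases halg : IsAlgebraic ℚ a
  · -- algebraic case
    obtain ⟨τ, a', ha', hne⟩ := exists_ringHom_closure_ne ℚ ℂ a
      (by rintro ⟨r, hr⟩; exact ha r hr.symm) halg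
    obtain ⟨σ, hσ⟩ := extend_of_subfield _ τ
    refine ⟨σ, fun h => hne ?_⟩
    have h2 := hσ a'
    have h3 : algebraMap (algebraicClosure ℚ ℂ) ℂ a' = a := ha'
    rw [h3, h, ← h3] at h2
    exact ((algebraMap (algebraicClosure ℚ ℂ) ℂ).injective h2).symm
  · -- transcendental case
    have hind : AlgebraicIndepOn ℚ id ({a} : Set ℂ) :=
      (algebraicIndependent_singleton_iff (R := ℚ) (x := fun i : ({a} : Set ℂ) => id (i : ℂ))
        ⟨a, rfl⟩).mpr halg
    obtain ⟨B, haB, hB⟩ := exists_isTranscendenceBasis_superset hind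
    let v : B → ℂ := fun b => b
    let R := Algebra.adjoin ℚ (Set.range v)
    have : Algebra.IsAlgebraic R ℂ := hB.isAlgebraic
    let θ : MvPolynomial B ℚ →ₐ[ℚ] MvPolynomial B ℚ :=
      MvPolynomial.aeval (fun b => MvPolynomial.X b + 1)
    let θ' : MvPolynomial B ℚ →ₐ[ℚ] MvPolynomial B ℚ :=
      MvPolynomial.aeval (fun b => MvPolynomial.X b - 1)
    have hθ : Function.LeftInverse θ' θ := by
      intro p
      have : (θ'.comp θ) = AlgHom.id ℚ _ := by
        apply MvPolynomial.algHom_ext
        intro b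
        simp [θ, θ']
      exact DFunLike.congr_fun this p
    let φ : R →+* ℂ := ((MvPolynomial.aeval (R := ℚ) v).toRingHom.comp
      θ.toRingHom).comp hB.1.aevalEquiv.symm.toRingEquiv.toRingHom
    have hφ : Function.Injective φ := by
      refine Function.Injective.comp (g := (MvPolynomial.aeval (R := ℚ) v).toRingHom.comp
        θ.toRingHom) ?_ hB.1.aevalEquiv.symm.injective
      refine Function.Injective.comp (g := (MvPolynomial.aeval (R := ℚ) v).toRingHom) ?_
        hθ.injective
      exact algebraicIndependent_iff_injective_aeval.mp hB.1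
    obtain ⟨σ, hσ⟩ := extend_hom (R := R) (by exact Subtype.val_injective) φ hφ
    have haB' : a ∈ B := haB rfl
    have haR : a ∈ R := Algebra.subset_adjoin ⟨⟨a, haB'⟩, rfl⟩
    refine ⟨σ, fun h => ?_⟩
    have h2 := hσ ⟨a, haR⟩
    have h3 : hB.1.aevalEquiv.symm ⟨a, haR⟩ = MvPolynomial.X ⟨a, haB'⟩ := by
      rw [AlgEquiv.symm_apply_eq]
      apply Subtype.ext
      simp
    have h4 : φ ⟨a, haR⟩ = a + 1 := by
      change (MvPolynomial.aeval (R := ℚ) v) (θ (hB.1.aevalEquiv.symm ⟨a, haR⟩)) = _
      rw [h3]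
      simp [θ, v]
    rw [h4] at h2
    change σ a = a + 1 at h2
    rw [h] at h2
    exact one_ne_zero (left_eq_add.mp h2)

end

end Fermat.Agent.MFLib
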