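import Mathlib

set_option autoImplicit false

open UpperHalfPlane ModularForm Complex Filter Topology Matrix.SpecialLinearGroup
open scoped MatrixGroups Manifold

namespace Fermat.Agent.MFLib

noncomputable section

/-- Holomorphic functions on the upper half plane all of whose weight-`k` translates by `SL(2, ℤ)`
are bounded at `i∞`. -/
structure HB (k : ℤ) (f : ℍ → ℂ) : Prop where
  holo : MDiff f
  bdd : ∀ γ : SL(2, ℤ), IsBoundedAtImInfty (f ∣[k] γ)

/-- Function-level modular forms for a subgroup of `SL(2, ℤ)`. -/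
structure IsMF (Γ : Subgroup SL(2, ℤ)) (k : ℤ) (f : ℍ → ℂ) : Prop extends HB k f where
  slash : ∀ γ ∈ Γ, f ∣[k] γ = f

variable {Γ : Subgroup SL(2, ℤ)} {k l : ℤ} {f g : ℍ → ℂ}

lemma holo_slash (hf : MDiff f) (k : ℤ) (γ : SL(2, ℤ)) : MDiff (f ∣[k] γ) :=
  MDifferentiable.slash hf k γ

namespace HB

lemma bdd_self (h : HB k f) : IsBoundedAtImInfty f := by
  simpa using h.bdd 1

lemma zero : HB k 0 where
  holo := fun _ => mdifferentiableAt_const
  bdd γ := by
    simpa using zero_form_isBoundedAtImInfty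

lemma one : HB 0 1 where
  holo := fun _ => mdifferentiableAt_const
  bdd γ := by
    rw [is_invariant_one]
    exact atImInfty.const_boundedAtFilter (1 : ℂ)

lemma const (c : ℂ) : HB 0 (Function.const ℍ c) where
  holo := fun _ => mdifferentiableAt_const
  bdd γ := by
    rw [is_invariant_const]
    exact atImInfty.const_boundedAtFilter c

lemma add (hf : HB k f) (hg : HB k g) : HB k (f + g) where
  holo := hf.holo.add hg.holo
  bdd γ := by
    rw [SlashAction.add_slash]
    exact (hf.bdd γ).add (hg.bdd γ)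

lemma smul (c : ℂ) (hf : HB k f) : HB k (c • f) where
  holo := hf.holo.const_smul c
  bdd γ := by
    rw [SL_smul_slash]
    exact (hf.bdd γ).const_smul_left c

lemma neg (hf : HB k f) : HB k (-f) := by
  simpa using hf.smul (-1)

lemma sub (hf : HB k f) (hg : HB k g) : HB k (f - g) := by
  simpa [sub_eq_add_neg] using hf.add hg.neg

lemma mul (hf : HB k f) (hg : HB l g) : HB (k + l) (f * g) where
  holo := hf.holo.mul hg.holo
  bdd γ := by
    rw [mul_slash_SL2]
    exact (hf.bdd γ).mul (hg.bdd γ)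

lemma congr_weight (hf : HB k f) (h : k = l) : HB l f := h ▸ hf

lemma pow (hf : HB k f) (n : ℕ) : HB (n * k) (f ^ n) := by
  induction n with
  | zero => simpa using one
  | succ n ih =>
    rw [pow_succ]
    exact (ih.mul hf).congr_weight (by push_cast; ring)

lemma sum {ι : Type*} {s : Finset ι} {F : ι → ℍ → ℂ} (h : ∀ i ∈ s, HB k (F i)) :
    HB k (∑ i ∈ s, F i) := by
  classical
  induction s using Finset.induction_on with
  | empty => simpa using zero
  | insert i s hi ih =>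
    rw [Finset.sum_insert hi]
    exact (h i (Finset.mem_insert_self i s)).add (ih fun j hj => h j (Finset.mem_insert_of_mem hj))

lemma prod {ι : Type*} {s : Finset ι} {F : ι → ℍ → ℂ} (h : ∀ i ∈ s, HB k (F i)) :
    HB (s.card * k) (∏ i ∈ s, F i) := by
  classical
  induction s using Finset.induction_on with
  | empty => simpa using one
  | insert i s hi ih =>
    rw [Finset.prod_insert hi, Finset.card_insert_of_notMem hi]
    exact ((h i (Finset.mem_insert_self i s)).mul
      (ih fun j hj => h j (Finset.mem_insert_of_mem hj))).congr_weight (by push_cast; ring)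

lemma slash (hf : HB k f) (γ : SL(2, ℤ)) : HB k (f ∣[k] γ) where
  holo := holo_slash hf.holo k γ
  bdd δ := by
    rw [← SlashAction.slash_mul]
    exact hf.bdd _

end HB

/-- slash of a product over a finset, `SL(2,ℤ)` version -/
lemma prod_slash_SL {ι : Type*} (s : Finset ι) (F : ι → ℍ → ℂ) (k : ℤ) (γ : SL(2, ℤ)) :
    (∏ i ∈ s, F i) ∣[(s.card * k : ℤ)] γ = ∏ i ∈ s, (F i ∣[k] γ) := by
  classical
  induction s using Finset.induction_on with
  | empty => simpa using is_invariant_one γ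
  | insert i s hi ih =>
    rw [Finset.prod_insert hi, Finset.prod_insert hi, Finset.card_insert_of_notMem hi, ← ih,
      ← mul_slash_SL2]
    congr 1
    push_cast; ring

lemma sum_slash_SL {ι : Type*} (s : Finset ι) (F : ι → ℍ → ℂ) (k : ℤ) (γ : SL(2, ℤ)) :
    (∑ i ∈ s, F i) ∣[k] γ = ∑ i ∈ s, (F i ∣[k] γ) := by
  classical
  induction s using Finset.induction_on with
  | empty => simp
  | insert i s hi ih =>
    rw [Finset.sum_insert hi, Finset.sum_insert hi, ← ih, SlashAction.add_slash]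

lemma pow_slash_SL (f : ℍ → ℂ) (k : ℤ) (n : ℕ) (γ : SL(2, ℤ)) :
    (f ^ n) ∣[(n * k : ℤ)] γ = (f ∣[k] γ) ^ n := by
  have := prod_slash_SL (Finset.range n) (fun _ => f) k γ
  simpa using this

namespace IsMF

lemma of_class {F : Type*} [FunLike F ℍ ℂ] [Γ.FiniteIndex] [ModularFormClass F Γ k] (f : F) :
    IsMF Γ k f where
  slash γ hγ := SlashInvariantFormClass.slash_action_eq f _ ⟨γ, hγ, rfl⟩
  holo := ModularFormClass.holo f
  bdd γ := ModularFormClass.bdd_at_infty_slash f γ

/-- the bundled modular form -/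
def toForm [Γ.FiniteIndex] (h : IsMF Γ k f) : ModularForm Γ k where
  toFun := f
  slash_action_eq' := by rintro _ ⟨γ, hγ, rfl⟩; exact h.slash γ hγ
  holo' := h.holo
  bdd_at_cusps' hc := by
    rw [Subgroup.IsArithmetic.isCusp_iff_isCusp_SL2Z] at hc
    rw [OnePoint.isBoundedAt_iff_forall_SL2Z hc]
    exact fun γ _ => h.bdd γ

@[simp] lemma coe_toForm [Γ.FiniteIndex] (h : IsMF Γ k f) : ⇑(h.toForm) = f := rfl

lemma zero : IsMF Γ k 0 where
  toHB := HB.zero
  slash γ _ := by simp

lemma one : IsMF Γ 0 1 where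
  toHB := HB.one
  slash γ _ := is_invariant_one γ

lemma const (c : ℂ) : IsMF Γ 0 (Function.const ℍ c) where
  toHB := HB.const c
  slash γ _ := is_invariant_const γ c

lemma add (hf : IsMF Γ k f) (hg : IsMF Γ k g) : IsMF Γ k (f + g) where
  toHB := hf.toHB.add hg.toHB
  slash γ hγ := by rw [SlashAction.add_slash, hf.slash γ hγ, hg.slash γ hγ]

lemma smul (c : ℂ) (hf : IsMF Γ k f) : IsMF Γ k (c • f) where
  toHB := hf.toHB.smul c
  slash γ hγ := by rw [SL_smul_slash, hf.slash γ hγ]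

lemma neg (hf : IsMF Γ k f) : IsMF Γ k (-f) := by
  simpa using hf.smul (-1)

lemma sub (hf : IsMF Γ k f) (hg : IsMF Γ k g) : IsMF Γ k (f - g) := by
  simpa [sub_eq_add_neg] using hf.add hg.neg

lemma mul (hf : IsMF Γ k f) (hg : IsMF Γ l g) : IsMF Γ (k + l) (f * g) where
  toHB := hf.toHB.mul hg.toHB
  slash γ hγ := by rw [mul_slash_SL2, hf.slash γ hγ, hg.slash γ hγ]

lemma congr_weight (hf : IsMF Γ k f) (h : k = l) : IsMF Γ l f := h ▸ hf

lemma pow (hf : IsMF Γ k f) (n : ℕ) : IsMF Γ (n * k) (f ^ n) where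
  toHB := hf.toHB.pow n
  slash γ hγ := by rw [pow_slash_SL, hf.slash γ hγ]

lemma sum {ι : Type*} {s : Finset ι} {F : ι → ℍ → ℂ} (h : ∀ i ∈ s, IsMF Γ k (F i)) :
    IsMF Γ k (∑ i ∈ s, F i) where
  toHB := HB.sum fun i hi => (h i hi).toHB
  slash γ hγ := by
    rw [sum_slash_SL]
    exact Finset.sum_congr rfl fun i hi => (h i hi).slash γ hγ

lemma mono {Γ' : Subgroup SL(2, ℤ)} (hf : IsMF Γ k f) (h : Γ' ≤ Γ) : IsMF Γ' k f where
  toHB := hf.toHB
  slash γ hγ := hf.slash γ (h hγ)

/-- function-level form: the finite-index common period. -/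
lemma exists_T_pow_mem (Γ : Subgroup SL(2, ℤ)) [Γ.FiniteIndex] :
    ∃ M : ℕ, 0 < M ∧ ∀ γ : SL(2, ℤ), γ * ModularGroup.T ^ M * γ⁻¹ ∈ Γ := by
  refine ⟨Γ.normalCore.index, Nat.pos_of_ne_zero Subgroup.FiniteIndex.index_ne_zero, fun γ => ?_⟩
  have h1 : ModularGroup.T ^ Γ.normalCore.index ∈ Γ.normalCore := Subgroup.pow_index_mem _ _
  exact Γ.normalCore_le ((Subgroup.normalCore_normal Γ).conj_mem _ h1 γ)

end IsMF

lemma periodic_of_slash_T_pow {M : ℕ} (h : f ∣[k] (ModularGroup.T ^ M) = f) :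
    Function.Periodic (f ∘ ofComplex) (M : ℝ) := by
  intro w
  by_cases hw : 0 < im w
  · have h1 : 0 < im (w + (M : ℝ)) := by simpa using hw
    have h2 := congrFun h ⟨w, hw⟩
    rw [SL_slash_apply] at h2
    simp only [Function.comp_apply, ofComplex_apply_of_im_pos h1, ofComplex_apply_of_im_pos hw]
    have h5 : ((ModularGroup.T ^ M : SL(2, ℤ)) : Matrix (Fin 2) (Fin 2) ℤ) = !![1, (M : ℤ); 0, 1] := by
      rw [← zpow_natCast, ModularGroup.coe_T_zpow]
    have h3 : denom ((ModularGroup.T ^ M : SL(2, ℤ)) : GL (Fin 2) ℝ) ((⟨w, hw⟩ : ℍ) : ℂ) = 1 := by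
      rw [ModularGroup.denom_apply, h5]
      simp
    rw [h3, one_zpow, mul_one] at h2
    rw [← h2]
    congr 1
    have h4 := UpperHalfPlane.modular_T_zpow_smul ⟨w, hw⟩ M
    rw [zpow_natCast] at h4
    rw [h4]
    ext
    simp [add_comm]
  · push Not at hw
    have h1 : im (w + (M : ℝ)) ≤ 0 := by simpa using hw
    simp only [Function.comp_apply]
    rw [ofComplex_apply_of_im_nonpos h1, ofComplex_apply_of_im_nonpos hw]

lemma IsMF.exists_periodic [Γ.FiniteIndex] (Γ' : Subgroup SL(2, ℤ)) (hΓ : Γ' = Γ)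
    (hf : IsMF Γ' k f) (M : ℕ) (hM : ∀ γ : SL(2, ℤ), γ * ModularGroup.T ^ M * γ⁻¹ ∈ Γ)
    (γ : SL(2, ℤ)) : Function.Periodic ((f ∣[k] γ) ∘ ofComplex) (M : ℝ) := by
  subst hΓ
  apply periodic_of_slash_T_pow (k := k)
  have h1 : γ * ModularGroup.T ^ M = (γ * ModularGroup.T ^ M * γ⁻¹) * γ := by group
  rw [← SlashAction.slash_mul, h1, SlashAction.slash_mul, hf.slash _ (hM γ)]

end

end Fermat.Agent.MFLib
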