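import Fermat.Agent.MFLib.LevelOne

set_option autoImplicit false

open UpperHalfPlane ModularForm Complex Filter Topology Matrix.SpecialLinearGroup
open scoped MatrixGroups Manifold Real

namespace Fermat.Agent.MFLib

noncomputable section

local notation "Δ" => ModularForm.discriminant

variable (N : ℕ) [NeZero N]

/-- the matrix `diag(N,1)` -/
def matN : GL (Fin 2) ℝ :=
  Matrix.GeneralLinearGroup.mkOfDetNeZero !![(N : ℝ), 0; 0, 1] (by simp [NeZero.ne])

/-- `N^11 Δ(Nz)` -/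
def xN : ℍ → ℂ := Δ ∣[(12 : ℤ)] (matN N)

/-- upper triangular integral matrix -/
def triMat (a b d : ℤ) (h : a * d = N) : GL (Fin 2) ℝ :=
  Matrix.GeneralLinearGroup.mkOfDetNeZero !![(a : ℝ), (b : ℝ); 0, (d : ℝ)] (by
    rw [Matrix.det_fin_two_of]
    have : ((a * d : ℤ) : ℝ) = N := by rw [h]; simp
    push_cast at this
    rw [mul_zero, sub_zero, this]
    exact_mod_cast NeZero.ne N)

lemma coe_entry (δ : SL(2, ℤ)) (i j : Fin 2) :
    ((δ : GL (Fin 2) ℝ) : Matrix (Fin 2) (Fin 2) ℝ) i j = ((δ i j : ℤ) : ℝ) := rfl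

lemma matN_apply (i j : Fin 2) :
    ((matN N : GL (Fin 2) ℝ) : Matrix (Fin 2) (Fin 2) ℝ) i j = !![(N : ℝ), 0; 0, 1] i j := rfl

lemma triMat_apply (a b d : ℤ) (h : a * d = N) (i j : Fin 2) :
    ((triMat N a b d h : GL (Fin 2) ℝ) : Matrix (Fin 2) (Fin 2) ℝ) i j =
      !![(a : ℝ), (b : ℝ); 0, (d : ℝ)] i j := rfl

lemma exists_decomp (γ : SL(2, ℤ)) : ∃ (δ : SL(2, ℤ)) (a b d : ℤ) (h : a * d = N),
    0 < a ∧ a ∣ γ 1 0 ∧
    matN N * (γ : GL (Fin 2) ℝ) = (δ : GL (Fin 2) ℝ) * triMat N a b d h := by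
  obtain ⟨p, hp⟩ : ∃ p : ℤ, p = N * γ 0 0 := ⟨_, rfl⟩
  obtain ⟨c, hc⟩ : ∃ c : ℤ, c = γ 1 0 := ⟨_, rfl⟩
  have hdet : γ 0 0 * γ 1 1 - γ 0 1 * γ 1 0 = 1 := by
    have := γ.det_coe
    rwa [Matrix.det_fin_two] at this
  have hN : (N : ℤ) ≠ 0 := by exact_mod_cast NeZero.ne N
  have hpc : Int.gcd p c ≠ 0 := by
    intro h
    rw [Int.gcd_eq_zero_iff] at h
    obtain ⟨h1, h2⟩ := h
    rw [hp] at h1
    have h3 : γ 0 0 = 0 := by
      rcases mul_eq_zero.mp h1 with h | h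
      · exact absurd h hN
      · exact h
    rw [h3, ← hc, h2] at hdet
    simp at hdet
  obtain ⟨g, hg⟩ : ∃ g : ℤ, g = ((Int.gcd p c : ℕ) : ℤ) := ⟨_, rfl⟩
  have hg0 : g ≠ 0 := by rw [hg]; exact_mod_cast hpc
  have hgpos : 0 < g := by
    have : (0 : ℤ) ≤ g := by rw [hg]; positivity
    omega
  obtain ⟨u, hu⟩ : g ∣ p := by rw [hg]; exact Int.gcd_dvd_left ..
  obtain ⟨v, hv⟩ : g ∣ c := by rw [hg]; exact Int.gcd_dvd_right ..
  obtain ⟨s, t, hst⟩ : ∃ s t : ℤ, s * u + t * v = 1 := by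
    obtain ⟨s, hs⟩ : ∃ s : ℤ, s = Int.gcdA p c := ⟨_, rfl⟩
    obtain ⟨t, ht⟩ : ∃ t : ℤ, t = Int.gcdB p c := ⟨_, rfl⟩
    refine ⟨s, t, ?_⟩
    have h1 := Int.gcd_eq_gcd_ab p c
    rw [← hg, ← hs, ← ht] at h1
    have h2 : g * (s * u + t * v) = g * 1 := by
      rw [mul_one]
      conv_rhs => rw [h1]
      rw [hu, hv]
      ring
    exact mul_left_cancel₀ hg0 h2
  obtain ⟨b, hb⟩ : ∃ b : ℤ, b = s * (N * γ 0 1) + t * γ 1 1 := ⟨_, rfl⟩
  obtain ⟨d, hd⟩ : ∃ d : ℤ, d = -v * (N * γ 0 1) + u * γ 1 1 := ⟨_, rfl⟩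
  have had : g * d = N := by
    have h1 : g * d = -c * (N * γ 0 1) + p * γ 1 1 := by rw [hd, hu, hv]; ring
    rw [h1, hp, hc]
    linear_combination (N : ℤ) * hdet
  let δ : SL(2, ℤ) := ⟨!![u, -t; v, s], by rw [Matrix.det_fin_two_of]; linarith⟩
  refine ⟨δ, g, b, d, had, hgpos, ⟨v, by rw [← hc, hv]⟩, ?_⟩
  have e1 : (N : ℤ) * γ 0 0 = u * g := by rw [← hp, hu]; ring
  have e2 : (N : ℤ) * γ 0 1 = u * b - t * d := by
    rw [hb, hd]; linear_combination (- (N : ℤ) * γ 0 1) * hst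
  have e3 : γ 1 0 = v * g := by rw [← hc, hv]; ring
  have e4 : γ 1 1 = v * b + s * d := by
    rw [hb, hd]; linear_combination (- γ 1 1) * hst
  have e1' := congrArg (fun z : ℤ => (z : ℝ)) e1
  have e2' := congrArg (fun z : ℤ => (z : ℝ)) e2
  have e3' := congrArg (fun z : ℤ => (z : ℝ)) e3
  have e4' := congrArg (fun z : ℤ => (z : ℝ)) e4
  push_cast at e1' e2' e3' e4'
  have d00 : δ 0 0 = u := rfl
  have d01 : δ 0 1 = -t := rfl
  have d10 : δ 1 0 = v := rfl
  have d11 : δ 1 1 = s := rfl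
  apply Matrix.GeneralLinearGroup.ext
  intro i j
  rw [Matrix.GeneralLinearGroup.coe_mul, Matrix.GeneralLinearGroup.coe_mul, Matrix.mul_apply,
    Matrix.mul_apply, Fin.sum_univ_two, Fin.sum_univ_two]
  simp only [coe_entry, matN_apply, triMat_apply]
  fin_cases i <;> fin_cases j
  · simp [d00, d01]; linarith
  · simp [d00, d01]; linarith
  · simp [d10, d11]; linarith
  · simp [d10, d11]; linarith

lemma disc_slash (γ : SL(2, ℤ)) : Δ ∣[(12 : ℤ)] (γ : GL (Fin 2) ℝ) = Δ :=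
  isMF_disc.slash γ (Subgroup.mem_top _)

lemma xN_slash (γ : SL(2, ℤ)) : ∃ (a b d : ℤ) (h : a * d = N), 0 < a ∧ a ∣ γ 1 0 ∧
    xN N ∣[(12 : ℤ)] γ = Δ ∣[(12 : ℤ)] triMat N a b d h := by
  obtain ⟨δ, a, b, d, h, ha, hac, heq⟩ := exists_decomp N γ
  refine ⟨a, b, d, h, ha, hac, ?_⟩
  rw [xN, SL_slash, ← SlashAction.slash_mul, heq, SlashAction.slash_mul, disc_slash]

lemma hb_xN : HB 12 (xN N) where
  holo := MDifferentiable.slash isMF_disc.holo 12 _
  bdd γ := by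
    obtain ⟨a, b, d, h, _, _, heq⟩ := xN_slash N γ
    rw [heq]
    exact IsBoundedAtImInfty.slash 12 (by rw [triMat_apply]; simp) isMF_disc.toHB.bdd_self

lemma xN_slash_of_mem {γ : SL(2, ℤ)} (hγ : γ ∈ CongruenceSubgroup.Gamma0 N) :
    xN N ∣[(12 : ℤ)] γ = xN N := by
  rw [CongruenceSubgroup.Gamma0_mem, ZMod.intCast_zmod_eq_zero_iff_dvd] at hγ
  obtain ⟨c, hc⟩ := hγ
  have hdet : γ 0 0 * γ 1 1 - γ 0 1 * γ 1 0 = 1 := by
    have := γ.det_coe
    rwa [Matrix.det_fin_two] at this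
  let δ : SL(2, ℤ) := ⟨!![γ 0 0, N * γ 0 1; c, γ 1 1], by
    rw [Matrix.det_fin_two_of]; rw [hc] at hdet; linarith⟩
  have hc' := congrArg (fun z : ℤ => (z : ℝ)) hc
  push_cast at hc'
  have d00 : δ 0 0 = γ 0 0 := rfl
  have d01 : δ 0 1 = N * γ 0 1 := rfl
  have d10 : δ 1 0 = c := rfl
  have d11 : δ 1 1 = γ 1 1 := rfl
  have : matN N * (γ : GL (Fin 2) ℝ) = (δ : GL (Fin 2) ℝ) * matN N := by
    apply Matrix.GeneralLinearGroup.ext
    intro i j
    rw [Matrix.GeneralLinearGroup.coe_mul, Matrix.GeneralLinearGroup.coe_mul, Matrix.mul_apply,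
      Matrix.mul_apply, Fin.sum_univ_two, Fin.sum_univ_two]
    simp only [coe_entry, matN_apply]
    fin_cases i <;> fin_cases j
    · simp [d00, d01]; ring
    · simp [d00, d01]
    · simp [d10, d11]; linarith
    · simp [d10, d11]
  rw [xN, SL_slash, ← SlashAction.slash_mul, this, SlashAction.slash_mul, disc_slash]

lemma isMF_xN : IsMF (CongruenceSubgroup.Gamma0 N) 12 (xN N) where
  toHB := hb_xN N
  slash _ hγ := xN_slash_of_mem N hγ

lemma im_triMat_smul (a b d : ℤ) (h : a * d = N) (ha : 0 < a) (τ : ℍ) :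
    ((triMat N a b d h) • τ).im = (a : ℝ) / d * τ.im := by
  have hN : (0 : ℤ) < N := by exact_mod_cast Nat.pos_of_ne_zero (NeZero.ne N)
  have hd : 0 < d := by
    rw [← h] at hN
    exact pos_of_mul_pos_right hN ha.le
  have hd' : (0 : ℝ) < d := by exact_mod_cast hd
  have hdet : (triMat N a b d h).det.val = (a : ℝ) * d := by
    rw [Matrix.GeneralLinearGroup.val_det_apply, Matrix.det_fin_two]
    simp only [triMat_apply]
    simp
  rw [UpperHalfPlane.im_smul_eq_div_normSq, hdet]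
  have h1 : denom (triMat N a b d h) τ = (d : ℂ) := by
    simp only [denom, triMat_apply]
    simp
  rw [h1, Complex.normSq_apply]
  have ha' : (0 : ℝ) < a := by exact_mod_cast ha
  rw [abs_of_pos (by positivity)]
  simp only [intCast_re, intCast_im, mul_zero, add_zero]
  field_simp

lemma exp_le_of_slash_eq {g : GL (Fin 2) ℝ} {r s : ℝ} (hr : 0 < r) (hs : 0 < s)
    {g' : GL (Fin 2) ℝ} (hg : ∀ τ : ℍ, (g • τ).im = r * τ.im) (hg' : ∀ τ : ℍ, (g' • τ).im = s * τ.im)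
    (h1 : ∃ c : ℝ, ∀ τ : ℍ, ‖Δ (g • τ)‖ ≤ c * ‖Δ (g' • τ)‖) : s ≤ r := by
  obtain ⟨c, hc⟩ := h1
  -- g • τ → i∞
  have htend : ∀ {g : GL (Fin 2) ℝ} {r : ℝ}, 0 < r → (∀ τ : ℍ, (g • τ).im = r * τ.im) →
      Tendsto (fun τ : ℍ => g • τ) atImInfty atImInfty := by
    intro g r hr hg
    rw [atImInfty, tendsto_comap_iff]
    have : (UpperHalfPlane.im ∘ fun τ : ℍ => g • τ) = fun τ : ℍ => r * τ.im := by
      ext τ; exact hg τ
    rw [this]
    exact Tendsto.const_mul_atTop hr tendsto_comap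
  have h2 := (exp_isBigO_discriminant).comp_tendsto (htend hr hg)
  have h3 : (fun τ : ℍ => Δ (g • τ)) =O[atImInfty] (fun τ : ℍ => Δ (g' • τ)) :=
    Asymptotics.IsBigO.of_bound c (Eventually.of_forall hc)
  have h4 : (fun τ : ℍ => Δ τ) =O[atImInfty] fun τ ↦ Real.exp (-2 * π * τ.im / 1) :=
    CuspFormClass.exp_decay_atImInfty (h := 1) CuspForm.discriminant one_pos one_mem_strictPeriods_SL
  have h5 := h4.comp_tendsto (htend hs hg')
  have h6 := (h2.trans h3).trans h5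
  simp only [Function.comp_def, hg, hg', div_one] at h6
  obtain ⟨C, hC⟩ := h6.bound
  by_contra hcon
  push Not at hcon
  rw [atImInfty, eventually_comap, eventually_atTop] at hC
  obtain ⟨y, hy⟩ := hC
  have h7 : ∀ t : ℝ, max y 1 ≤ t → Real.exp (2 * π * (s - r) * t) ≤ C := by
    intro t ht
    have ht0 : 0 < t := lt_of_lt_of_le (lt_of_lt_of_le one_pos (le_max_right y 1)) ht
    have h8 := hy t (le_trans (le_max_left y 1) ht) ⟨(t : ℂ) * Complex.I, by simpa using ht0⟩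
      (by simp [UpperHalfPlane.im])
    have h9 : UpperHalfPlane.im ⟨(t : ℂ) * Complex.I, by simpa using ht0⟩ = t := by
      simp [UpperHalfPlane.im]
    rw [h9, Real.norm_eq_abs, Real.norm_eq_abs, abs_of_pos (Real.exp_pos _),
      abs_of_pos (Real.exp_pos _)] at h8
    have h10 : Real.exp (2 * π * (s - r) * t) =
        Real.exp (-2 * π * (r * t)) / Real.exp (-2 * π * (s * t)) := by
      rw [← Real.exp_sub]; congr 1; ring
    rw [h10, div_le_iff₀ (Real.exp_pos _)]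
    exact h8
  have h11 : Tendsto (fun t : ℝ => Real.exp (2 * π * (s - r) * t)) atTop atTop := by
    apply Real.tendsto_exp_atTop.comp
    exact Tendsto.const_mul_atTop (by have := sub_pos.mpr hcon; positivity) tendsto_id
  obtain ⟨t, ht1, ht2⟩ := ((eventually_ge_atTop (max y 1)).and (h11.eventually_gt_atTop C)).exists
  exact absurd (h7 t ht1) (not_le.mpr ht2)

/-- The stabilizer of `Δ(Nz)` in `SL(2,ℤ)` is `Γ₀(N)`. -/
theorem mem_Gamma0_of_xN_slash {γ : SL(2, ℤ)} (h : xN N ∣[(12 : ℤ)] γ = xN N) :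
    γ ∈ CongruenceSubgroup.Gamma0 N := by
  obtain ⟨a, b, d, had, ha, hac, heq⟩ := xN_slash N γ
  rw [h] at heq
  have hN : (0 : ℤ) < N := by exact_mod_cast Nat.pos_of_ne_zero (NeZero.ne N)
  have hd : 0 < d := by
    rw [← had] at hN
    exact pos_of_mul_pos_right hN ha.le
  have hN' : (0 : ℝ) < N := by exact_mod_cast hN
  have ha' : (0 : ℝ) < a := by exact_mod_cast ha
  have hd' : (0 : ℝ) < d := by exact_mod_cast hd
  have hM : ∀ τ : ℍ, ((matN N) • τ).im = (N : ℝ) * τ.im := by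
    intro τ
    have h1 : matN N = triMat N N 0 1 (by simp) := by
      apply Matrix.GeneralLinearGroup.ext
      intro i j
      rw [matN_apply, triMat_apply]
      fin_cases i <;> fin_cases j <;> simp
    rw [h1, im_triMat_smul N N 0 1 (by simp) hN]
    simp
  have hle : (N : ℝ) ≤ (a : ℝ) / d := by
    refine exp_le_of_slash_eq (g := triMat N a b d had) (g' := matN N) (by positivity) hN'
      (im_triMat_smul N a b d had ha) hM ?_
    refine ⟨(N : ℝ) ^ 11 * |((d : ℝ) ^ 12)| / (N : ℝ) ^ 11, fun τ => ?_⟩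
    have h1 := congrFun heq τ
    rw [xN, slash_apply, slash_apply] at h1
    have hdetM : (matN N).det.val = (N : ℝ) := by
      rw [Matrix.GeneralLinearGroup.val_det_apply, Matrix.det_fin_two]
      simp only [matN_apply]
      simp
    have hdetT : (triMat N a b d had).det.val = (N : ℝ) := by
      rw [Matrix.GeneralLinearGroup.val_det_apply, Matrix.det_fin_two]
      simp only [triMat_apply]
      have : ((a * d : ℤ) : ℝ) = N := by rw [had]; simp
      push_cast at this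
      simpa using this
    have hdenM : denom (matN N) τ = 1 := by
      simp only [denom, matN_apply]; simp
    have hdenT : denom (triMat N a b d had) τ = (d : ℂ) := by
      simp only [denom, triMat_apply]; simp
    have hσM : UpperHalfPlane.σ (matN N) = ContinuousAlgEquiv.refl ℝ ℂ := by
      simp only [UpperHalfPlane.σ, hdetM, hN', ↓reduceIte]
    have hσT : UpperHalfPlane.σ (triMat N a b d had) = ContinuousAlgEquiv.refl ℝ ℂ := by
      simp only [UpperHalfPlane.σ, hdetT, hN', ↓reduceIte]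
    rw [hdetM, hdetT, hdenM, hdenT, hσM, hσT] at h1
    have h2 := congrArg norm h1
    simp only [ContinuousAlgEquiv.coe_refl', id_eq, norm_mul, norm_zpow, norm_one, one_zpow,
      mul_one] at h2
    have h3 : ‖(((|(N : ℝ)| : ℝ)) : ℂ)‖ ^ ((12 : ℤ) - 1) = (N : ℝ) ^ 11 := by
      rw [Complex.norm_real, Real.norm_eq_abs, abs_abs, abs_of_pos hN']
      norm_num
    rw [h3] at h2
    have h4 : ‖(d : ℂ)‖ ^ (-12 : ℤ) = ((d : ℝ) ^ 12)⁻¹ := by
      rw [zpow_neg]
      congr 1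
      rw [show ((d : ℤ) : ℂ) = ((d : ℝ) : ℂ) by push_cast; rfl, Complex.norm_real,
        Real.norm_eq_abs, abs_of_pos hd']
      exact_mod_cast rfl
    rw [h4] at h2
    rw [abs_of_pos (by positivity)]
    have h5 : (0 : ℝ) < (d : ℝ) ^ 12 := by positivity
    have h6 : (0 : ℝ) < (N : ℝ) ^ 11 := by positivity
    field_simp at h2 ⊢
    linarith
  have hd1 : d = 1 := by
    rw [le_div_iff₀ hd'] at hle
    have h1 : ((N : ℤ) * d : ℤ) ≤ a := by exact_mod_cast hle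
    rw [← had] at h1
    by_contra hne
    have h2 : 2 ≤ d := by omega
    nlinarith
  rw [hd1, mul_one] at had
  rw [CongruenceSubgroup.Gamma0_mem, ZMod.intCast_zmod_eq_zero_iff_dvd, ← had]
  exact hac

end

end Fermat.Agent.MFLib
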