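import Fermat.Agent.MFLib.Basic

set_option autoImplicit false

open UpperHalfPlane ModularForm Complex Filter Topology Matrix.SpecialLinearGroup
open scoped MatrixGroups Manifold

namespace Fermat.Agent.MFLib

noncomputable section

/-- local division -/
lemma exists_analytic_quotient {A B : ℂ → ℂ} {z₀ : ℂ} (hA : AnalyticAt ℂ A z₀)
    (hB : AnalyticAt ℂ B z₀) (hB0 : analyticOrderAt B z₀ ≠ ⊤)
    (hC : ∀ n : ℕ, ∃ C : ℂ → ℂ, AnalyticAt ℂ C z₀ ∧
      ∀ᶠ z in 𝓝[≠] z₀, A z ^ (n + 1) = C z * B z ^ n) :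
    ∃ H : ℂ → ℂ, AnalyticAt ℂ H z₀ ∧ ∀ᶠ z in 𝓝 z₀, A z = B z * H z := by
  obtain ⟨b, hb⟩ := ENat.ne_top_iff_exists.mp hB0
  have hba : (b : ℕ∞) ≤ analyticOrderAt A z₀ := by
    by_contra hcon
    push Not at hcon
    obtain ⟨a, ha⟩ := ENat.ne_top_iff_exists.mp (ne_top_of_lt hcon)
    rw [← ha, Nat.cast_lt] at hcon
    obtain ⟨C, hC1, hC2⟩ := hC b
    have h1 : ∀ᶠ z in 𝓝 z₀, (A ^ (b + 1)) z = (C * B ^ b) z :=
      ((hA.pow _).continuousAt.eventuallyEq_nhds_iff_eventuallyEq_nhdsNE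
        (hC1.mul (hB.pow _)).continuousAt).mp hC2
    have h2 := analyticOrderAt_congr h1
    rw [analyticOrderAt_pow hA, analyticOrderAt_mul hC1 (hB.pow _), analyticOrderAt_pow hB,
      ← ha, ← hb] at h2
    have h3 : ((b * b : ℕ) : ℕ∞) ≤ (((b + 1) * a : ℕ) : ℕ∞) := by
      have : ((b + 1) • (a : ℕ∞)) = (((b + 1) * a : ℕ) : ℕ∞) := by
        rw [nsmul_eq_mul]; push_cast; ring
      rw [← this, h2]
      have h4 : (b • (b : ℕ∞)) = ((b * b : ℕ) : ℕ∞) := by
        rw [nsmul_eq_mul]; push_cast; ring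
      rw [h4]
      exact le_add_self
    rw [Nat.cast_le] at h3
    have h5 : (b + 1) * a < b * b := by
      calc (b + 1) * a ≤ (b + 1) * (b - 1) := Nat.mul_le_mul_left _ (by omega)
        _ < b * b := by
          obtain ⟨c, rfl⟩ : ∃ c, b = c + 1 := ⟨b - 1, by omega⟩
          simp only [Nat.add_sub_cancel]
          nlinarith
    omega
  obtain ⟨gA, hgA, hgA'⟩ := (natCast_le_analyticOrderAt hA).mp hba
  obtain ⟨gB, hgB, hgB0, hgB'⟩ := (hB.analyticOrderAt_eq_natCast).mp hb.symm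
  refine ⟨fun z => gA z / gB z, hgA.div hgB hgB0, ?_⟩
  filter_upwards [hgA', hgB', hgB.continuousAt.eventually_ne hgB0] with z h1 h2 h3
  rw [h1, h2, smul_eq_mul, smul_eq_mul]
  field_simp

/-- gluing local quotients -/
lemma exists_holo_quotient {A B : ℍ → ℂ} (hA : MDiff A) (hB : MDiff B) (hB0 : B ≠ 0)
    (hloc : ∀ τ : ℍ, ∃ H : ℂ → ℂ, AnalyticAt ℂ H τ ∧
      ∀ᶠ z in 𝓝 (τ : ℂ), (A ∘ ofComplex) z = (B ∘ ofComplex) z * H z) :
    ∃ H : ℍ → ℂ, MDiff H ∧ A = B * H := by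
  have hB' : ∀ τ : ℍ, ∀ᶠ z in 𝓝[≠] (τ : ℂ), (B ∘ ofComplex) z ≠ 0 := by
    intro τ
    have h1 : ¬ ∃ᶠ z in 𝓝[≠] τ, B z = 0 := fun h => hB0 (eq_zero_of_frequently hB h)
    rw [not_frequently, eventually_nhdsWithin_iff] at h1
    rw [eventually_nhdsWithin_iff, ← isOpenEmbedding_coe.map_nhds_eq, eventually_map]
    filter_upwards [h1] with w hw hw'
    simpa using hw (fun h => hw' (by rw [Set.mem_singleton_iff] at h ⊢; rw [h]))
  set Q : ℂ → ℂ := fun z => (A ∘ ofComplex) z / (B ∘ ofComplex) z with hQ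
  choose H hH1 hH2 using hloc
  have hQH : ∀ τ : ℍ, ∀ᶠ z in 𝓝[≠] (τ : ℂ), Q z = H τ z := by
    intro τ
    filter_upwards [hB' τ, (hH2 τ).filter_mono nhdsWithin_le_nhds] with z h1 h2
    rw [hQ]
    simp only
    rw [h2]
    field_simp
  have hlim : ∀ τ : ℍ, Tendsto Q (𝓝[≠] (τ : ℂ)) (𝓝 (H τ τ)) := by
    intro τ
    have h1 : Tendsto (H τ) (𝓝[≠] (τ : ℂ)) (𝓝 (H τ τ)) :=
      (hH1 τ).continuousAt.tendsto.mono_left nhdsWithin_le_nhds
    exact h1.congr' ((hQH τ).mono fun z hz => hz.symm)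
  let h : ℍ → ℂ := fun τ => H τ τ
  have hh : ∀ τ : ℍ, ∀ᶠ z in 𝓝 (τ : ℂ), (h ∘ ofComplex) z = H τ z := by
    intro τ
    have h1 : ∀ᶠ z in 𝓝 (τ : ℂ), AnalyticAt ℂ (H τ) z := (hH1 τ).eventually_analyticAt
    have h2 : ∀ᶠ z in 𝓝 (τ : ℂ), 0 < z.im :=
      isOpen_upperHalfPlaneSet.mem_nhds τ.im_pos
    have h3 : ∀ᶠ z in 𝓝[≠] (τ : ℂ), ∀ᶠ w in 𝓝 z, Q w = H τ w := by
      have h4 := hQH τ
      rw [eventually_nhdsWithin_iff] at h4 ⊢
      filter_upwards [h4.eventually_nhds] with z hz hz'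
      filter_upwards [hz, isOpen_compl_singleton.mem_nhds hz'] with w hw1 hw2
      exact hw1 hw2
    rw [eventually_nhdsWithin_iff] at h3
    filter_upwards [h1, h2, h3] with z hz1 hz2 hz3
    rcases eq_or_ne z (τ : ℂ) with rfl | hne
    · simp [h]
    · have hz4 := hz3 hne
      rw [Function.comp_apply, ofComplex_apply_of_im_pos hz2]
      have h5 : Tendsto Q (𝓝[≠] z) (𝓝 (H τ z)) :=
        (hz1.continuousAt.tendsto.mono_left nhdsWithin_le_nhds).congr'
          ((hz4.filter_mono nhdsWithin_le_nhds).mono fun w hw => hw.symm)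
      exact tendsto_nhds_unique (hlim ⟨z, hz2⟩) h5
  refine ⟨h, ?_, ?_⟩
  · intro τ
    rw [UpperHalfPlane.mdifferentiableAt_iff]
    exact ((hH1 τ).differentiableAt).congr_of_eventuallyEq (hh τ)
  · ext τ
    have h1 := (hH2 τ).self_of_nhds
    simpa using h1

lemma analyticAt_ofComplex {A : ℍ → ℂ} (hA : MDiff A) (τ : ℍ) :
    AnalyticAt ℂ (A ∘ ofComplex) τ :=
  ((UpperHalfPlane.mdifferentiable_iff.mp hA).analyticOnNhd isOpen_upperHalfPlaneSet) τ τ.im_pos

lemma order_ne_top {B : ℍ → ℂ} (hB : MDiff B) (hB0 : B ≠ 0) (τ : ℍ) :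
    analyticOrderAt (B ∘ ofComplex) τ ≠ ⊤ := by
  intro h
  rw [analyticOrderAt_eq_top] at h
  apply hB0
  apply eq_zero_of_frequently hB (τ := τ)
  apply Eventually.frequently
  rw [eventually_nhdsWithin_iff]
  rw [← isOpenEmbedding_coe.map_nhds_eq, eventually_map] at h
  filter_upwards [h] with w hw _
  simpa using hw

variable {Γ : Subgroup SL(2, ℤ)} {k l : ℤ} {f g : ℍ → ℂ}

lemma analyticAt_cuspFunction {M : ℕ} (hM : 0 < M) (hf : HB k f) (γ : SL(2, ℤ))
    (hper : Function.Periodic ((f ∣[k] γ) ∘ ofComplex) (M : ℝ)) :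
    AnalyticAt ℂ (cuspFunction M (f ∣[k] γ)) 0 :=
  UpperHalfPlane.analyticAt_cuspFunction_zero (by exact_mod_cast hM) hper (hf.slash γ).holo
    (hf.bdd γ)

/-- A holomorphic function with a periodicity whose cusp function vanishes near `0` is zero. -/
lemma eq_zero_of_cuspFunction_eventually {M : ℕ} (hM : 0 < M) {F : ℍ → ℂ} (hF : MDiff F)
    (hper : Function.Periodic (F ∘ ofComplex) (M : ℝ))
    (h : ∀ᶠ q in 𝓝[≠] (0 : ℂ), cuspFunction M F q = 0) : F = 0 := by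
  have hM' : (0 : ℝ) < M := by exact_mod_cast hM
  have h1 : ∀ᶠ τ : ℍ in atImInfty, F τ = 0 := by
    have h2 : Tendsto (fun τ : ℍ ↦ Function.Periodic.qParam (M : ℝ) τ) atImInfty (𝓝[≠] 0) :=
      (Function.Periodic.qParam_tendsto hM').comp tendsto_coe_atImInfty
    filter_upwards [h2.eventually h] with τ hτ
    rwa [eq_cuspFunction τ hM'.ne' hper] at hτ
  rw [atImInfty, eventually_comap, eventually_atTop] at h1
  obtain ⟨y, hy⟩ := h1
  let τ₀ : ℍ := ⟨(max y 1 + 1 : ℝ) * Complex.I, by simp; positivity⟩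
  apply eq_zero_of_frequently hF (τ := τ₀)
  apply Eventually.frequently
  apply Filter.Eventually.filter_mono nhdsWithin_le_nhds
  have h4 : y < τ₀.im := by
    have : τ₀.im = max y 1 + 1 := by simp [τ₀, UpperHalfPlane.im]
    rw [this]
    exact lt_of_le_of_lt (le_max_left y 1) (lt_add_one _)
  have h3 : ∀ᶠ w : ℍ in 𝓝 τ₀, y < w.im :=
    (UpperHalfPlane.continuous_im.tendsto τ₀).eventually (lt_mem_nhds h4)
  filter_upwards [h3] with w hw
  exact hy w.im hw.le w rfl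

lemma slash_eq_zero_iff (γ : SL(2, ℤ)) : f ∣[k] γ = 0 ↔ f = 0 := by
  constructor
  · intro h
    have : (f ∣[k] γ) ∣[k] γ⁻¹ = 0 := by rw [h]; simp
    rwa [← SlashAction.slash_mul, mul_inv_cancel, SlashAction.slash_one] at this
  · rintro rfl; simp

/-- division with cusps -/
theorem isMF_division [Γ.FiniteIndex] {kA kB : ℤ} {A B : ℍ → ℂ} (hA : IsMF Γ kA A)
    (hB : IsMF Γ kB B) (hB0 : B ≠ 0)
    (hC : ∀ n : ℕ, ∃ C : ℍ → ℂ, IsMF Γ ((n + 1 : ℕ) * kA - n * kB) C ∧ A ^ (n + 1) = C * B ^ n) :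
    ∃ H : ℍ → ℂ, IsMF Γ (kA - kB) H ∧ A = B * H := by
  obtain ⟨M, hM, hMΓ⟩ := IsMF.exists_T_pow_mem Γ
  have hM' : (0 : ℝ) < M := by exact_mod_cast hM
  choose C hC1 hC2 using hC
  obtain ⟨H, hH1, hH2⟩ := exists_holo_quotient hA.holo hB.holo hB0 (by
    intro τ
    refine exists_analytic_quotient (analyticAt_ofComplex hA.holo τ)
      (analyticAt_ofComplex hB.holo τ) (order_ne_top hB.holo hB0 τ) (fun n => ?_)
    refine ⟨C n ∘ ofComplex, analyticAt_ofComplex (hC1 n).holo τ, Eventually.of_forall fun z => ?_⟩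
    have := congrFun (hC2 n) (ofComplex z)
    simpa using this)
  have hslash : ∀ γ : SL(2, ℤ), A ∣[kA] γ = (B ∣[kB] γ) * (H ∣[kA - kB] γ) := by
    intro γ
    rw [← mul_slash_SL2, ← hH2]
    congr 1
    ring
  refine ⟨H, ⟨⟨hH1, fun γ => ?_⟩, fun γ hγ => ?_⟩, hH2⟩
  · -- boundedness
    set A' := A ∣[kA] γ with hA'
    set B' := B ∣[kB] γ with hB'
    set H' := H ∣[kA - kB] γ with hH'
    have pA : Function.Periodic (A' ∘ ofComplex) (M : ℝ) := hA.exists_periodic Γ rfl M hMΓ γ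
    have pB : Function.Periodic (B' ∘ ofComplex) (M : ℝ) := hB.exists_periodic Γ rfl M hMΓ γ
    have aA : AnalyticAt ℂ (cuspFunction M A') 0 := analyticAt_cuspFunction hM hA.toHB γ pA
    have aB : AnalyticAt ℂ (cuspFunction M B') 0 := analyticAt_cuspFunction hM hB.toHB γ pB
    have hB'0 : B' ≠ 0 := fun h => hB0 ((slash_eq_zero_iff γ).mp h)
    have oB : analyticOrderAt (cuspFunction M B') 0 ≠ ⊤ := by
      intro h
      rw [analyticOrderAt_eq_top] at h
      exact hB'0 (eq_zero_of_cuspFunction_eventually hM (hB.toHB.slash γ).holo pB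
        (h.filter_mono nhdsWithin_le_nhds))
    obtain ⟨Ht, hHt1, hHt2⟩ := exists_analytic_quotient aA aB oB (by
      intro n
      have pC : Function.Periodic ((C n ∣[(n + 1 : ℕ) * kA - n * kB] γ) ∘ ofComplex) (M : ℝ) :=
        (hC1 n).exists_periodic Γ rfl M hMΓ γ
      refine ⟨cuspFunction M (C n ∣[(n + 1 : ℕ) * kA - n * kB] γ),
        analyticAt_cuspFunction hM (hC1 n).toHB γ pC, ?_⟩
      have h1 : A' ^ (n + 1) = (C n ∣[(n + 1 : ℕ) * kA - n * kB] γ) * B' ^ n := by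
        rw [hA', hB', ← pow_slash_SL, ← pow_slash_SL, ← mul_slash_SL2, ← hC2 n]
        congr 1
        ring
      filter_upwards [self_mem_nhdsWithin] with q hq
      rw [cuspFunction, cuspFunction, cuspFunction,
        Function.Periodic.cuspFunction_eq_of_nonzero _ _ hq,
        Function.Periodic.cuspFunction_eq_of_nonzero _ _ hq,
        Function.Periodic.cuspFunction_eq_of_nonzero _ _ hq]
      have := congrFun h1 (ofComplex (Function.Periodic.invQParam M q))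
      simpa using this)
    have hne : ∀ᶠ q in 𝓝[≠] (0 : ℂ), cuspFunction M B' q ≠ 0 := by
      rcases aB.eventually_eq_zero_or_eventually_ne_zero with h | h
      · exact absurd (analyticOrderAt_eq_top.mpr h) oB
      · exact h
    have h2 : Tendsto (fun τ : ℍ ↦ Function.Periodic.qParam (M : ℝ) τ) atImInfty (𝓝[≠] 0) :=
      (Function.Periodic.qParam_tendsto hM').comp tendsto_coe_atImInfty
    have h3 : ∀ᶠ τ : ℍ in atImInfty, H' τ = Ht (Function.Periodic.qParam (M : ℝ) τ) := by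
      filter_upwards [h2.eventually hne, h2.eventually (hHt2.filter_mono nhdsWithin_le_nhds)]
        with τ h4 h5
      rw [eq_cuspFunction τ hM'.ne' pB] at h4 h5
      rw [eq_cuspFunction τ hM'.ne' pA] at h5
      have h6 := congrFun (hslash γ) τ
      rw [Pi.mul_apply] at h6
      exact mul_left_cancel₀ h4 (h6.symm.trans h5)
    have h7 : Tendsto H' atImInfty (𝓝 (Ht 0)) := by
      refine Tendsto.congr' (h3.mono fun τ h => h.symm) ?_
      exact hHt1.continuousAt.tendsto.comp (h2.mono_right nhdsWithin_le_nhds)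
    exact h7.isBigO_one ℝ
  · -- invariance
    have h1 := hslash γ
    rw [hA.slash γ hγ, hB.slash γ hγ] at h1
    have h2 : B * (H ∣[kA - kB] γ - H) = 0 := by
      rw [mul_sub, ← h1, ← hH2, sub_self]
    rcases (UpperHalfPlane.mul_eq_zero_iff hB.holo ((holo_slash hH1 _ γ).sub hH1)).mp h2 with h | h
    · exact absurd h hB0
    · exact sub_eq_zero.mp h

end

end Fermat.Agent.MFLib
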