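import Fermat.Agent.MFLib.XNExp
import Fermat.Agent.MFLib.Division

set_option autoImplicit false

open UpperHalfPlane ModularForm Complex Filter Topology Matrix.SpecialLinearGroup
open scoped MatrixGroups Manifold Real
open Finset

namespace Fermat.Agent.MFLib

noncomputable section

local notation "Δ" => ModularForm.discriminant

section general

variable {Γ : Subgroup SL(2, ℤ)} [Γ.FiniteIndex] {k l : ℤ} {f x : ℍ → ℂ}

lemma diffl_ne_zero (hx : IsMF Γ l x) (hinj : Function.Injective (conj Γ l x)) :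
    diffl Γ l x ≠ 0 := by
  intro h
  rw [diffl, UpperHalfPlane.prod_eq_zero_iff] at h
  · obtain ⟨δ, hδ, h0⟩ := h
    rw [sub_eq_zero] at h0
    have h1 := hinj ((conj_one hx).trans h0)
    simp only [mem_erase, mem_univ, and_true] at hδ
    exact hδ h1.symm
  · intro δ _
    exact hx.holo.sub (hx.toHB.conj δ).holo

lemma isMF_diffl (hx : IsMF Γ l x) : IsMF Γ ((idx Γ - 1 : ℕ) * l) (diffl Γ l x) where
  toHB := by
    have := HB.prod (s := univ.erase ((1 : SL(2, ℤ)) : SL(2, ℤ) ⧸ Γ))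
      (F := fun δ => x - conj Γ l x δ) (k := l) (fun δ _ => hx.toHB.sub (hx.toHB.conj δ))
    rwa [card_erase_of_mem (mem_univ _), card_univ] at this
  slash γ hγ := by
    have h1 := prod_slash_SL (univ.erase ((1 : SL(2, ℤ)) : SL(2, ℤ) ⧸ Γ))
      (fun δ => x - conj Γ l x δ) l γ
    rw [card_erase_of_mem (mem_univ _), card_univ] at h1
    rw [diffl, h1]
    refine Finset.prod_bij' (fun δ _ => γ⁻¹ • δ) (fun δ _ => γ • δ) ?_ ?_ ?_ ?_ ?_
    · intro δ hδ
      simp only [mem_erase, mem_univ, and_true] at hδ ⊢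
      intro h
      apply hδ
      rw [inv_smul_eq_iff] at h
      rw [h]
      change ((γ * 1 : SL(2, ℤ)) : SL(2, ℤ) ⧸ Γ) = _
      rw [mul_one]
      have : ((γ : SL(2, ℤ)) : SL(2, ℤ) ⧸ Γ) = ((1 : SL(2, ℤ)) : SL(2, ℤ) ⧸ Γ) := by
        rw [QuotientGroup.eq]
        simpa using Γ.inv_mem hγ
      exact this
    · intro δ hδ
      simp only [mem_erase, mem_univ, and_true] at hδ ⊢
      intro h
      apply hδ
      rw [← eq_inv_smul_iff] at h
      rw [h]
      change ((γ⁻¹ * 1 : SL(2, ℤ)) : SL(2, ℤ) ⧸ Γ) = _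
      rw [mul_one]
      have : ((γ⁻¹ : SL(2, ℤ)) : SL(2, ℤ) ⧸ Γ) = ((1 : SL(2, ℤ)) : SL(2, ℤ) ⧸ Γ) := by
        rw [QuotientGroup.eq]
        simpa using hγ
      exact this
    · intro δ _; simp
    · intro δ _; simp
    · intro δ _
      have h2 : (x - conj Γ l x δ) ∣[l] γ = x ∣[l] γ - conj Γ l x δ ∣[l] γ := by
        rw [sub_eq_add_neg, SlashAction.add_slash, SlashAction.neg_slash, ← sub_eq_add_neg]
      rw [h2, hx.slash γ hγ, conj_slash hx]

/-- The different as the derivative of the characteristic polynomial. -/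
lemma diffl_eq (hx : IsMF Γ l x) :
    diffl Γ l x = ∑ i ∈ range (idx Γ + 1), (i : ℂ) • (cpf Γ l x i * x ^ (i - 1)) := by
  classical
  ext τ
  set a : (SL(2, ℤ) ⧸ Γ) → ℂ := fun q => conj Γ l x q τ with ha
  set q₀ : SL(2, ℤ) ⧸ Γ := ((1 : SL(2, ℤ)) : SL(2, ℤ) ⧸ Γ) with hq₀
  have hx0 : x τ = a q₀ := by rw [ha, hq₀]; simp only [conj_one hx]
  open Polynomial in
  have h1 : (derivative (∏ q, (X - C (a q)))).eval (a q₀) =
      ∏ δ ∈ univ.erase q₀, (a q₀ - a δ) := by
    rw [← Finset.mul_prod_erase univ (fun q => X - C (a q)) (mem_univ q₀), derivative_mul]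
    simp [eval_prod]
  have h2 : diffl Γ l x τ = ∏ δ ∈ univ.erase q₀, (a q₀ - a δ) := by
    rw [diffl, Finset.prod_apply]
    refine Finset.prod_congr rfl fun δ _ => ?_
    rw [Pi.sub_apply, hx0]
  rw [h2, ← h1, Polynomial.derivative_eval, Polynomial.sum_over_range' _ _ (idx Γ + 1)]
  · rw [Finset.sum_apply]
    refine Finset.sum_congr rfl fun i hi => ?_
    rw [coeff_prod_X_sub_C a (by simpa [Nat.lt_succ_iff] using hi)]
    simp only [Pi.smul_apply, Pi.mul_apply, Pi.pow_apply, smul_eq_mul, cpf_apply, hx0]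
    rw [← ha]
    ring
  · rw [natDegree_prodXC]
    exact Nat.lt_succ_self _
  · intro n; simp

/-- Linear independence of powers of `x` over level one forms. -/
lemma eq_zero_of_sum_mul_pow (hx : IsMF Γ l x) (hinj : Function.Injective (conj Γ l x))
    {w : ℤ} {R : ℕ → ℍ → ℂ} (hR : ∀ i : ℕ, IsMF ⊤ (w - i * l) (R i))
    (h : ∑ i ∈ range (idx Γ), R i * x ^ i = 0) : ∀ i ∈ range (idx Γ), R i = 0 := by
  classical
  have h1 : ∀ q : SL(2, ℤ) ⧸ Γ, ∑ i ∈ range (idx Γ), R i * (conj Γ l x q) ^ i = 0 := by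
    intro q
    have h2 : (∑ i ∈ range (idx Γ), R i * x ^ i) ∣[w] (q.out)⁻¹ = 0 := by rw [h]; simp
    rw [sum_slash_SL] at h2
    rw [← h2]
    refine Finset.sum_congr rfl fun i _ => ?_
    have h3 : (R i * x ^ i) ∣[w] (q.out)⁻¹ = (R i * x ^ i) ∣[((w - i * l) + i * l : ℤ)] (q.out)⁻¹ := by
      congr 1; ring
    rw [h3, mul_slash_SL2, (hR i).slash _ (Subgroup.mem_top _), pow_slash_SL]
    rfl
  -- the discriminant-like product
  set D : ℍ → ℂ := ∏ p ∈ (univ : Finset ((SL(2, ℤ) ⧸ Γ) × (SL(2, ℤ) ⧸ Γ))).filter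
    (fun p => p.1 ≠ p.2), (conj Γ l x p.1 - conj Γ l x p.2) with hD
  have hDh : MDiff D := by
    rw [hD]
    have := HB.prod (s := (univ : Finset ((SL(2, ℤ) ⧸ Γ) × (SL(2, ℤ) ⧸ Γ))).filter
      (fun p => p.1 ≠ p.2)) (F := fun p => conj Γ l x p.1 - conj Γ l x p.2) (k := l)
      (fun p _ => (hx.toHB.conj p.1).sub (hx.toHB.conj p.2))
    exact this.holo
  have hD0 : D ≠ 0 := by
    intro h0
    rw [hD, UpperHalfPlane.prod_eq_zero_iff] at h0
    · obtain ⟨p, hp, hp0⟩ := h0
      rw [sub_eq_zero] at hp0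
      exact (Finset.mem_filter.mp hp).2 (hinj hp0)
    · intro p _
      exact ((hx.toHB.conj p.1).sub (hx.toHB.conj p.2)).holo
  intro i hi
  have h4 : D * R i = 0 := by
    ext τ
    rw [Pi.mul_apply, Pi.zero_apply]
    by_cases hDτ : D τ = 0
    · rw [hDτ, zero_mul]
    · have hinjτ : Function.Injective (fun q => conj Γ l x q τ) := by
        intro p q hpq
        by_contra hne
        apply hDτ
        rw [hD, Finset.prod_apply]
        refine Finset.prod_eq_zero (i := (p, q)) (by simp [hne]) ?_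
        simpa [sub_eq_zero] using hpq
      have h5 : (∑ i ∈ range (idx Γ), Polynomial.C (R i τ) * Polynomial.X ^ i) = 0 := by
        refine Polynomial.eq_zero_of_natDegree_lt_card_of_eval_eq_zero _ hinjτ ?_ ?_
        · intro q
          rw [Polynomial.eval_finsetSum]
          have := congrFun (h1 q) τ
          simpa [Finset.sum_apply] using this
        · refine (Polynomial.natDegree_sum_le_of_forall_le (n := idx Γ - 1) _ _ ?_).trans_lt ?_
          · intro i hi
            refine (Polynomial.natDegree_C_mul_X_pow_le _ _).trans ?_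
            have := Finset.mem_range.mp hi
            omega
          · have : 0 < idx Γ := Fintype.card_pos
            change idx Γ - 1 < idx Γ
            omega
      have h6 := congrArg (fun p => p.coeff i) h5
      simp only [Polynomial.finsetSum_coeff, Polynomial.coeff_C_mul, Polynomial.coeff_X_pow,
        Polynomial.coeff_zero] at h6
      rw [Finset.sum_eq_single i] at h6
      · simp at h6
        rw [h6, mul_zero]
      · intro j _ hj
        simp [Ne.symm hj]
      · intro h; exact absurd hi h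
  rcases (UpperHalfPlane.mul_eq_zero_iff hDh (hR i).holo).mp h4 with h | h
  · exact absurd h hD0
  · exact h

lemma IsRat.of_eq_zero_add {p : PowerSeries ℂ} (h : IsRat p) : IsRat p := h

lemma isRat_cpf (hx : IsMF Γ l x) (hT : ModularGroup.T ∈ Γ)
    (hinj : Function.Injective (conj Γ l x)) (hrat : IsRat (qe x)) {i : ℕ} (hi : i ≤ idx Γ) :
    IsRat (qe (cpf Γ l x i)) := by
  classical
  obtain ⟨lam, hl1, hl2⟩ := exists_retraction
  have hxq : QG x := hx.qg hT
  choose c' hc' hc'q using fun i : ℕ => exists_mapL_levelOne lam _ _ (isMF_cpf hx i)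
  have h1 : ∑ i ∈ range (idx Γ + 1), c' i * x ^ i = 0 := by
    have hq : QG (∑ i ∈ range (idx Γ + 1), c' i * x ^ i) :=
      QG.sum fun i _ => (hc' i).qg_top.mul (hxq.pow i)
    rw [← hq.qe_eq_zero, QG.qe_sum fun i _ => (hc' i).qg_top.mul (hxq.pow i)]
    have h2 : mapL lam (qe (∑ i ∈ range (idx Γ + 1), cpf Γ l x i * x ^ i)) = 0 := by
      rw [charpoly_identity hx, qe, qExpansion_zero, mapL_zero]
    rw [QG.qe_sum fun i _ => (isMF_cpf hx i).qg_top.mul (hxq.pow i), mapL_sum] at h2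
    rw [← h2]
    refine Finset.sum_congr rfl fun i _ => ?_
    rw [(hc' i).qg_top.qe_mul (hxq.pow i), (isMF_cpf hx i).qg_top.qe_mul (hxq.pow i), hc'q,
      mul_comm, mul_comm (qe (cpf Γ l x i)), mapL_mul_of_isRat]
    rw [hxq.qe_pow]; exact hrat.pow i
  have hμ : c' (idx Γ) = 1 := by
    rw [← (hc' _).qg_top.qe_inj QG.one, hc'q, cpf_idx, qe, qExpansion_one,
      ← isRat_iff_mapL lam hl1 hl2]
    exact IsRat.one
  set R : ℕ → ℍ → ℂ := fun i => if i < idx Γ then cpf Γ l x i - c' i else 0 with hR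
  have hR1 : ∀ i : ℕ, IsMF ⊤ ((idx Γ : ℤ) * l - i * l) (R i) := by
    intro i
    rw [hR]
    by_cases h : i < idx Γ
    · simp only [h, ↓reduceIte]
      refine ((isMF_cpf hx i).sub (hc' i)).congr_weight ?_
      rw [Nat.cast_sub h.le]
      ring
    · simp only [h, ↓reduceIte]
      exact IsMF.zero
  have hR2 : ∑ i ∈ range (idx Γ), R i * x ^ i = 0 := by
    have h3 := charpoly_identity hx
    rw [Finset.sum_range_succ, cpf_idx] at h3
    rw [Finset.sum_range_succ, hμ] at h1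
    have h4 : ∑ i ∈ range (idx Γ), R i * x ^ i =
        (∑ i ∈ range (idx Γ), cpf Γ l x i * x ^ i) - ∑ i ∈ range (idx Γ), c' i * x ^ i := by
      rw [← Finset.sum_sub_distrib]
      refine Finset.sum_congr rfl fun i hi => ?_
      simp only [hR, Finset.mem_range.mp hi, ↓reduceIte]
      ring
    rw [h4, sub_eq_zero]
    exact add_right_cancel (h3.trans h1.symm)
  rcases hi.lt_or_eq with hlt | heq
  · have h5 := eq_zero_of_sum_mul_pow hx hinj hR1 hR2 i (Finset.mem_range.mpr hlt)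
    simp only [hR, hlt, ↓reduceIte] at h5
    rw [isRat_iff_mapL lam hl1 hl2, ← hc'q, sub_eq_zero.mp h5]
  · rw [heq, cpf_idx, qe, qExpansion_one]; exact IsRat.one

lemma isRat_diffl (hx : IsMF Γ l x) (hT : ModularGroup.T ∈ Γ)
    (hinj : Function.Injective (conj Γ l x)) (hrat : IsRat (qe x)) : IsRat (qe (diffl Γ l x)) := by
  have hxq : QG x := hx.qg hT
  rw [diffl_eq hx, QG.qe_sum fun i _ => ((isMF_cpf hx i).qg_top.mul (hxq.pow _)).smul _]
  refine IsRat.sum fun i hi => ?_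
  rw [QG.qe_smul _ ((isMF_cpf hx i).qg_top.mul (hxq.pow _)), (isMF_cpf hx i).qg_top.qe_mul (hxq.pow _),
    hxq.qe_pow]
  have := IsRat.smul (i : ℚ) ((isRat_cpf hx hT hinj hrat
    (Nat.lt_succ_iff.mp (Finset.mem_range.mp hi))).mul (hrat.pow (i - 1)))
  simpa using this

/-- multiply by the different and apply a `ℚ`-linear map -/
lemma exists_diffl_mul (hx : IsMF Γ l x) (hT : ModularGroup.T ∈ Γ)
    (hinj : Function.Injective (conj Γ l x)) (hrat : IsRat (qe x)) (lam : ℂ →ₗ[ℚ] ℂ)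
    (hf : IsMF Γ k f) : ∃ G : ℍ → ℂ, IsMF Γ (k + (idx Γ - 1 : ℕ) * l) G ∧
      qe G = qe (diffl Γ l x) * mapL lam (qe f) := by
  have hxq : QG x := hx.qg hT
  have hfq : QG f := hf.qg hT
  have htr : ∀ m : ℕ, IsMF ⊤ (k + m * l) (tr Γ (k + m * l) (f * x ^ m)) := fun m =>
    isMF_tr (hf.mul (hx.pow m))
  choose t ht htq using fun m : ℕ => exists_mapL_levelOne lam _ _ (htr m)
  refine ⟨∑ j ∈ range (idx Γ), x ^ j * ∑ i ∈ Icc (j + 1) (idx Γ), cpf Γ l x i * t (i - (j + 1)),
    ?_, ?_⟩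
  · refine IsMF.sum fun j hj => ?_
    have h1 : IsMF Γ (k + ((idx Γ : ℤ) - 1 - j) * l)
        (∑ i ∈ Icc (j + 1) (idx Γ), cpf Γ l x i * t (i - (j + 1))) := by
      refine IsMF.sum fun i hi => ?_
      rw [Finset.mem_Icc] at hi
      refine (((isMF_cpf hx i).mul (ht (i - (j + 1)))).mono le_top).congr_weight ?_
      rw [Nat.cast_sub hi.2, Nat.cast_sub hi.1]
      push_cast
      ring
    refine ((hx.pow j).mul h1).congr_weight ?_
    have : 1 ≤ idx Γ := Fintype.card_pos
    rw [Nat.cast_sub this]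
    push_cast
    ring
  · have hQ1 : ∀ j i : ℕ, QG (cpf Γ l x i * t (i - (j + 1))) := fun j i =>
      (isMF_cpf hx i).qg_top.mul (ht _).qg_top
    have hQ2 : ∀ j i : ℕ, QG (cpf Γ l x i * tr Γ (k + (i - (j + 1) : ℕ) * l) (f * x ^ (i - (j + 1)))) :=
      fun j i => (isMF_cpf hx i).qg_top.mul (htr _).qg_top
    have hD := (isMF_diffl hx).qg hT
    have key := congrArg (fun g => mapL lam (qe g)) (lagrange_form hf hx)
    rw [hfq.qe_mul hD, mul_comm, mapL_mul_of_isRat _ (isRat_diffl hx hT hinj hrat)] at key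
    rw [key, QG.qe_sum fun j _ => (hxq.pow j).mul (QG.sum fun i _ => hQ1 j i),
      QG.qe_sum fun j _ => (hxq.pow j).mul (QG.sum fun i _ => hQ2 j i), mapL_sum]
    refine Finset.sum_congr rfl fun j _ => ?_
    rw [(hxq.pow j).qe_mul (QG.sum fun i _ => hQ1 j i), (hxq.pow j).qe_mul (QG.sum fun i _ => hQ2 j i),
      hxq.qe_pow, mapL_mul_of_isRat _ (hrat.pow j)]
    congr 1
    rw [QG.qe_sum fun i _ => hQ1 j i, QG.qe_sum fun i _ => hQ2 j i, mapL_sum]
    refine Finset.sum_congr rfl fun i hi => ?_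
    rw [(isMF_cpf hx i).qg_top.qe_mul (ht _).qg_top, (isMF_cpf hx i).qg_top.qe_mul (htr _).qg_top,
      mapL_mul_of_isRat _ (isRat_cpf hx hT hinj hrat (Finset.mem_Icc.mp hi).2), htq]

/-- Galois conjugates of modular forms are modular forms. -/
theorem exists_conj_form (hx : IsMF Γ l x) (hT : ModularGroup.T ∈ Γ)
    (hinj : Function.Injective (conj Γ l x)) (hrat : IsRat (qe x)) (σ : ℂ →+* ℂ)
    (hf : IsMF Γ k f) : ∃ f' : ℍ → ℂ, IsMF Γ k f' ∧ qe f' = PowerSeries.map σ (qe f) := by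
  have hfq : QG f := hf.qg hT
  have hD := isMF_diffl hx
  have hDq := hD.qg hT
  choose G hG hGq using fun n : ℕ => exists_diffl_mul hx hT hinj hrat (sigL σ) (hf.pow n)
  have hA := hG 1
  obtain ⟨H, hH, hAH⟩ := isMF_division hA hD (diffl_ne_zero hx hinj) (by
    intro n
    refine ⟨G (n + 1), (hG (n + 1)).congr_weight (by push_cast; ring), ?_⟩
    rw [← ((hA.qg hT).pow _).qe_inj (((hG (n + 1)).qg hT).mul (hDq.pow n)), (hA.qg hT).qe_pow,
      ((hG (n + 1)).qg hT).qe_mul (hDq.pow n), hDq.qe_pow, hGq, hGq, mapL_sigL, mapL_sigL,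
      hfq.qe_pow, hfq.qe_pow, map_pow, map_pow]
    ring)
  refine ⟨H, hH.congr_weight (by push_cast; ring), ?_⟩
  have h1 := congrArg qe hAH
  rw [hDq.qe_mul (hH.qg hT), hGq, mapL_sigL, hfq.qe_pow, pow_one] at h1
  exact (mul_left_cancel₀ (by rw [Ne, hDq.qe_eq_zero]; exact diffl_ne_zero hx hinj) h1).symm

end general

section Gamma0

variable (N : ℕ) [NeZero N]

lemma conj_xN_injective :
    Function.Injective (conj (CongruenceSubgroup.Gamma0 N) 12 (xN N)) := by
  intro p q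
  induction p using QuotientGroup.induction_on with
  | H g =>
  induction q using QuotientGroup.induction_on with
  | H h =>
  intro heq
  rw [conj_mk (isMF_xN N), conj_mk (isMF_xN N)] at heq
  rw [QuotientGroup.eq]
  apply mem_Gamma0_of_xN_slash N
  rw [SlashAction.slash_mul, heq, ← SlashAction.slash_mul, inv_mul_cancel, SlashAction.slash_one]

variable {k : ℤ} {f : ℍ → ℂ}

theorem exists_conj_Gamma0 (σ : ℂ →+* ℂ) (hf : IsMF (CongruenceSubgroup.Gamma0 N) k f) :
    ∃ f' : ℍ → ℂ, IsMF (CongruenceSubgroup.Gamma0 N) k f' ∧ qe f' = PowerSeries.map σ (qe f) :=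
  exists_conj_form (isMF_xN N) (T_mem_Gamma0 N) (conj_xN_injective N) (isRat_qe_xN N) σ hf

end Gamma0

end

end Fermat.Agent.MFLib
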