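import Fermat.Agent.MFLib.QExp

set_option autoImplicit false

namespace Fermat.Agent.MFLib

noncomputable section

lemma rat_int_of_forall_mul_pow {z : ℤ} (hz : z ≠ 0) {r : ℚ}
    (h : ∀ n : ℕ, ∃ m : ℤ, (z : ℚ) * r ^ n = m) : ∃ m : ℤ, r = m := by
  have hden : r.den = 1 := by
    by_contra hne
    have h2 : 2 ≤ r.den := by
      have := r.den_pos
      omega
    have hdvd : ∀ n : ℕ, (r.den : ℤ) ^ n ∣ z := by
      intro n
      obtain ⟨m, hm⟩ := h n
      have h3 : z * r.num ^ n = m * (r.den : ℤ) ^ n := by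
        have h4 : (z : ℚ) * (r.num : ℚ) ^ n = m * (r.den : ℚ) ^ n := by
          rw [← hm, mul_assoc, ← mul_pow, Rat.mul_den_eq_num]
        exact_mod_cast h4
      have hcop : IsCoprime ((r.den : ℤ) ^ n) (r.num ^ n) := by
        apply IsCoprime.pow
        rw [Int.isCoprime_iff_gcd_eq_one]
        have := r.reduced
        rw [Int.gcd_comm]
        simpa [Int.gcd, Nat.Coprime] using this
      exact hcop.dvd_of_dvd_mul_right ⟨m, by rw [h3]; ring⟩
    have h5 := Int.natAbs_dvd_natAbs.mpr (hdvd z.natAbs)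
    rw [Int.natAbs_pow, Int.natAbs_natCast] at h5
    have h6 := Nat.le_of_dvd (Int.natAbs_pos.mpr hz) h5
    have h7 : z.natAbs < 2 ^ z.natAbs := Nat.lt_two_pow_self
    have h8 : 2 ^ z.natAbs ≤ r.den ^ z.natAbs := Nat.pow_le_pow_left h2 _
    omega
  exact ⟨r.num, ((Rat.den_eq_one_iff r).mp hden).symm⟩

lemma IsInt.neg {p : PowerSeries ℂ} (hp : IsInt p) : IsInt (-p) := by
  simpa using hp.smul (-1)

lemma isInt_of_mul_pow {P F : PowerSeries ℂ} (hP : IsInt P) (hP0 : P ≠ 0) (hF : IsRat F)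
    (h : ∀ n : ℕ, IsInt (P * F ^ n)) : IsInt F := by
  intro j
  induction j using Nat.strong_induction_on with
  | _ j ih =>
    -- truncation
    set A : PowerSeries ℂ := PowerSeries.mk fun i => if i < j then F.coeff i else 0 with hA
    have hAint : IsInt A := by
      intro i
      rw [hA, PowerSeries.coeff_mk]
      split_ifs with hi
      · exact ih i hi
      · exact ⟨0, by simp⟩
    obtain ⟨G, hG⟩ : PowerSeries.X ^ j ∣ F - A := by
      rw [PowerSeries.X_pow_dvd_iff]
      intro i hi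
      simp [hA, hi]
    have hG0 : G.coeff 0 = F.coeff j := by
      have h1 := congrArg (fun p => PowerSeries.coeff (0 + j) p) hG
      simp only [PowerSeries.coeff_X_pow_mul] at h1
      rw [← h1, map_sub, hA, PowerSeries.coeff_mk]
      simp
    obtain ⟨P', hP'⟩ : PowerSeries.X ^ P.order.toNat ∣ P := PowerSeries.X_pow_order_dvd
    set v := P.order.toNat with hv
    have hP'0 : P'.coeff 0 = P.coeff v := by
      conv_rhs => rw [hP']
      have := PowerSeries.coeff_X_pow_mul P' v 0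
      rw [zero_add] at this
      exact this.symm
    have hPv : P.coeff v ≠ 0 := PowerSeries.coeff_order hP0
    obtain ⟨z, hz⟩ := hP v
    obtain ⟨r, hr⟩ := hF j
    have hz0 : z ≠ 0 := by
      rintro rfl
      apply hPv
      rw [hz]; simp
    have h2 : ∀ n : ℕ, IsInt (P * (F - A) ^ n) := by
      intro n
      rw [sub_eq_add_neg, add_pow, Finset.mul_sum]
      refine IsInt.sum fun m _ => ?_
      have : P * (F ^ m * (-A) ^ (n - m) * (n.choose m : PowerSeries ℂ)) =
          ((n.choose m : ℤ) : ℂ) • ((P * F ^ m) * (-A) ^ (n - m)) := by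
        rw [Algebra.smul_def]
        simp
        ring
      rw [this]
      exact ((h m).mul (hAint.neg.pow _)).smul _
    have h3 : ∀ n : ℕ, ∃ m : ℤ, (z : ℚ) * r ^ n = m := by
      intro n
      obtain ⟨m, hm⟩ := h2 n (0 + (v + j * n))
      refine ⟨m, ?_⟩
      have h4 : P * (F - A) ^ n = PowerSeries.X ^ (v + j * n) * (P' * G ^ n) := by
        rw [hG, mul_pow, ← pow_mul]
        conv_lhs => rw [hP']
        ring
      rw [h4, PowerSeries.coeff_X_pow_mul, PowerSeries.coeff_zero_eq_constantCoeff_apply, map_mul,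
        map_pow, ← PowerSeries.coeff_zero_eq_constantCoeff_apply,
        ← PowerSeries.coeff_zero_eq_constantCoeff_apply, hP'0, hG0, hz, hr] at hm
      exact_mod_cast hm
    obtain ⟨m, hm⟩ := rat_int_of_forall_mul_pow hz0 h3
    exact ⟨m, by rw [hr, hm]; simp⟩

/-- bounded denominators -/
def BD (p : PowerSeries ℂ) : Prop := ∃ m : ℕ, m ≠ 0 ∧ IsInt ((m : ℂ) • p)

lemma IsInt.natsmul {p : PowerSeries ℂ} (hp : IsInt p) (m : ℕ) : IsInt ((m : ℂ) • p) := by
  simpa using hp.smul (m : ℤ)

lemma IsInt.BD {p : PowerSeries ℂ} (hp : IsInt p) : BD p := ⟨1, one_ne_zero, by simpa using hp⟩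

lemma BD.add {p q : PowerSeries ℂ} (hp : BD p) (hq : BD q) : BD (p + q) := by
  obtain ⟨a, ha, hpa⟩ := hp
  obtain ⟨b, hb, hqb⟩ := hq
  refine ⟨a * b, mul_ne_zero ha hb, ?_⟩
  have : ((a * b : ℕ) : ℂ) • (p + q) = (b : ℂ) • ((a : ℂ) • p) + (a : ℂ) • ((b : ℂ) • q) := by
    rw [smul_smul, smul_smul, smul_add]; push_cast; congr 2; ring
  rw [this]
  exact (hpa.natsmul b).add (hqb.natsmul a)

lemma BD.mul {p q : PowerSeries ℂ} (hp : BD p) (hq : BD q) : BD (p * q) := by
  obtain ⟨a, ha, hpa⟩ := hp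
  obtain ⟨b, hb, hqb⟩ := hq
  refine ⟨a * b, mul_ne_zero ha hb, ?_⟩
  have : ((a * b : ℕ) : ℂ) • (p * q) = ((a : ℂ) • p) * ((b : ℂ) • q) := by
    rw [smul_mul_smul_comm]; push_cast; rfl
  rw [this]
  exact hpa.mul hqb

lemma BD.zero : BD 0 := IsInt.zero.BD

lemma BD.one : BD 1 := IsInt.one.BD

lemma BD.pow {p : PowerSeries ℂ} (hp : BD p) (n : ℕ) : BD (p ^ n) := by
  induction n with
  | zero => simpa using BD.one
  | succ n ih => rw [pow_succ]; exact ih.mul hp

lemma BD.sum {ι : Type*} {s : Finset ι} {p : ι → PowerSeries ℂ} (h : ∀ i ∈ s, BD (p i)) :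
    BD (∑ i ∈ s, p i) := by
  classical
  induction s using Finset.induction_on with
  | empty => simpa using BD.zero
  | insert i s hi ih =>
    rw [Finset.sum_insert hi]
    exact (h i (Finset.mem_insert_self i s)).add (ih fun j hj => h j (Finset.mem_insert_of_mem hj))

/-- common denominator -/
lemma exists_common_denom {ι : Type*} (s : Finset ι) {p : ι → PowerSeries ℂ}
    (h : ∀ i ∈ s, BD (p i)) : ∃ m : ℕ, m ≠ 0 ∧ ∀ i ∈ s, IsInt ((m : ℂ) • p i) := by
  classical
  induction s using Finset.induction_on with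
  | empty => exact ⟨1, one_ne_zero, by simp⟩
  | insert i s hi ih =>
    obtain ⟨a, ha, hpa⟩ := h i (Finset.mem_insert_self i s)
    obtain ⟨b, hb, hpb⟩ := ih fun j hj => h j (Finset.mem_insert_of_mem hj)
    refine ⟨a * b, mul_ne_zero ha hb, fun j hj => ?_⟩
    rcases Finset.mem_insert.mp hj with rfl | hj
    · have : ((a * b : ℕ) : ℂ) • p j = (b : ℂ) • ((a : ℂ) • p j) := by
        rw [smul_smul]; push_cast; congr 1; ring
      rw [this]
      exact hpa.natsmul b
    · have : ((a * b : ℕ) : ℂ) • p j = (a : ℂ) • ((b : ℂ) • p j) := by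
        rw [smul_smul]; push_cast; rfl
      rw [this]
      exact (hpb j hj).natsmul a

end

end Fermat.Agent.MFLib
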