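import Fermat.Agent.MFLib.Basic

set_option autoImplicit false

open UpperHalfPlane ModularForm Complex Filter Topology Matrix.SpecialLinearGroup
open scoped MatrixGroups Manifold

namespace Fermat.Agent.MFLib

noncomputable section

variable {Γ : Subgroup SL(2, ℤ)} {k l : ℤ} {f g : ℍ → ℂ}

/-- functions with a good `q`-expansion -/
structure QG (f : ℍ → ℂ) : Prop where
  per : Function.Periodic (f ∘ ofComplex) (1 : ℝ)
  holo : MDiff f
  bdd : IsBoundedAtImInfty f

/-- the `q`-expansion -/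
abbrev qe (f : ℍ → ℂ) : PowerSeries ℂ := qExpansion 1 f

lemma periodic_of_T_mem (hf : IsMF Γ k f) (hT : ModularGroup.T ∈ Γ) :
    Function.Periodic (f ∘ ofComplex) (1 : ℝ) := by
  have := periodic_of_slash_T_pow (k := k) (f := f) (M := 1) (by simpa using hf.slash _ hT)
  simpa using this

lemma IsMF.qg (hf : IsMF Γ k f) (hT : ModularGroup.T ∈ Γ) : QG f :=
  ⟨periodic_of_T_mem hf hT, hf.holo, hf.toHB.bdd_self⟩

lemma IsMF.qg_top (hf : IsMF ⊤ k f) : QG f := hf.qg (Subgroup.mem_top _)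

namespace QG

lemma analyticAt (hf : QG f) : AnalyticAt ℂ (cuspFunction 1 f) 0 :=
  UpperHalfPlane.analyticAt_cuspFunction_zero one_pos hf.per hf.holo hf.bdd

lemma mul (hf : QG f) (hg : QG g) : QG (f * g) where
  per w := by
    have h1 := hf.per w; have h2 := hg.per w
    simp only [Function.comp_apply, Pi.mul_apply] at h1 h2 ⊢
    rw [h1, h2]
  holo := hf.holo.mul hg.holo
  bdd := hf.bdd.mul hg.bdd

lemma add (hf : QG f) (hg : QG g) : QG (f + g) where
  per w := by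
    have h1 := hf.per w; have h2 := hg.per w
    simp only [Function.comp_apply, Pi.add_apply] at h1 h2 ⊢
    rw [h1, h2]
  holo := hf.holo.add hg.holo
  bdd := hf.bdd.add hg.bdd

lemma smul (c : ℂ) (hf : QG f) : QG (c • f) where
  per w := by
    have h1 := hf.per w
    simp only [Function.comp_apply, Pi.smul_apply] at h1 ⊢
    rw [h1]
  holo := hf.holo.const_smul c
  bdd := hf.bdd.const_smul_left c

lemma sub (hf : QG f) (hg : QG g) : QG (f - g) := by
  simpa [sub_eq_add_neg] using hf.add (hg.smul (-1))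

lemma one : QG 1 := (IsMF.one (Γ := ⊤)).qg_top

lemma zero : QG 0 := (IsMF.zero (Γ := ⊤) (k := 0)).qg_top

lemma pow (hf : QG f) (n : ℕ) : QG (f ^ n) := by
  induction n with
  | zero => simpa using one
  | succ n ih => rw [pow_succ]; exact ih.mul hf

lemma sum {ι : Type*} {s : Finset ι} {F : ι → ℍ → ℂ} (h : ∀ i ∈ s, QG (F i)) :
    QG (∑ i ∈ s, F i) := by
  classical
  induction s using Finset.induction_on with
  | empty => simpa using zero
  | insert i s hi ih =>
    rw [Finset.sum_insert hi]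
    exact (h i (Finset.mem_insert_self i s)).add (ih fun j hj => h j (Finset.mem_insert_of_mem hj))

lemma qe_mul (hf : QG f) (hg : QG g) : qe (f * g) = qe f * qe g :=
  qExpansion_mul hf.analyticAt hg.analyticAt

lemma qe_add (hf : QG f) (hg : QG g) : qe (f + g) = qe f + qe g :=
  qExpansion_add hf.analyticAt hg.analyticAt

lemma qe_sub (hf : QG f) (hg : QG g) : qe (f - g) = qe f - qe g :=
  qExpansion_sub hf.analyticAt hg.analyticAt

lemma qe_smul (c : ℂ) (hf : QG f) : qe (c • f) = c • qe f :=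
  qExpansion_smul hf.analyticAt c

lemma qe_pow (hf : QG f) (n : ℕ) : qe (f ^ n) = qe f ^ n := by
  induction n with
  | zero => simpa using qExpansion_one 1
  | succ n ih => rw [pow_succ, pow_succ, (hf.pow n).qe_mul hf, ih]

lemma qe_sum {ι : Type*} {s : Finset ι} {F : ι → ℍ → ℂ} (h : ∀ i ∈ s, QG (F i)) :
    qe (∑ i ∈ s, F i) = ∑ i ∈ s, qe (F i) := by
  classical
  induction s using Finset.induction_on with
  | empty => simpa using qExpansion_zero 1
  | insert i s hi ih =>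
    rw [Finset.sum_insert hi, Finset.sum_insert hi, ← ih fun j hj => h j (Finset.mem_insert_of_mem hj)]
    exact (h i (Finset.mem_insert_self i s)).qe_add
      (sum fun j hj => h j (Finset.mem_insert_of_mem hj))

lemma qe_eq_zero (hf : QG f) : qe f = 0 ↔ f = 0 :=
  qExpansion_eq_zero_iff one_pos hf.per hf.holo hf.bdd

lemma qe_inj (hf : QG f) (hg : QG g) : qe f = qe g ↔ f = g := by
  rw [← sub_eq_zero, ← hf.qe_sub hg, (hf.sub hg).qe_eq_zero, sub_eq_zero]

end QG

/-! ### Coefficientwise application of `ℚ`-linear maps -/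

/-- coefficientwise application of a `ℚ`-linear map -/
def mapL (lam : ℂ →ₗ[ℚ] ℂ) (p : PowerSeries ℂ) : PowerSeries ℂ :=
  PowerSeries.mk fun n => lam (p.coeff n)

@[simp] lemma coeff_mapL (lam : ℂ →ₗ[ℚ] ℂ) (p : PowerSeries ℂ) (n : ℕ) :
    (mapL lam p).coeff n = lam (p.coeff n) := by simp [mapL]

/-- power series with rational coefficients -/
def IsRat (p : PowerSeries ℂ) : Prop := ∀ n, ∃ r : ℚ, p.coeff n = (r : ℂ)

/-- power series with integer coefficients -/
def IsInt (p : PowerSeries ℂ) : Prop := ∀ n, ∃ m : ℤ, p.coeff n = (m : ℂ)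

lemma mapL_add (lam : ℂ →ₗ[ℚ] ℂ) (p q : PowerSeries ℂ) :
    mapL lam (p + q) = mapL lam p + mapL lam q := by
  ext n; simp

lemma mapL_zero (lam : ℂ →ₗ[ℚ] ℂ) : mapL lam 0 = 0 := by
  ext n; simp

lemma mapL_sum {ι : Type*} (lam : ℂ →ₗ[ℚ] ℂ) (s : Finset ι) (p : ι → PowerSeries ℂ) :
    mapL lam (∑ i ∈ s, p i) = ∑ i ∈ s, mapL lam (p i) := by
  ext n; simp

lemma mapL_sub (lam : ℂ →ₗ[ℚ] ℂ) (p q : PowerSeries ℂ) :
    mapL lam (p - q) = mapL lam p - mapL lam q := by
  ext n; simp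

lemma mapL_mul_of_isRat (lam : ℂ →ₗ[ℚ] ℂ) {r : PowerSeries ℂ} (hr : IsRat r)
    (p : PowerSeries ℂ) : mapL lam (r * p) = r * mapL lam p := by
  ext n
  rw [coeff_mapL, PowerSeries.coeff_mul, PowerSeries.coeff_mul, map_sum]
  refine Finset.sum_congr rfl fun x _ => ?_
  obtain ⟨c, hc⟩ := hr x.1
  rw [hc, coeff_mapL]
  have h1 : ∀ y : ℂ, (c : ℂ) * y = c • y := fun y => by rw [Rat.smul_def]
  rw [h1, h1, map_smul]

lemma mapL_smul_of_isRat (lam : ℂ →ₗ[ℚ] ℂ) {r : PowerSeries ℂ} (hr : IsRat r) (c : ℂ) :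
    mapL lam (c • r) = lam c • r := by
  ext n
  rw [coeff_mapL, PowerSeries.coeff_smul, PowerSeries.coeff_smul]
  obtain ⟨a, ha⟩ := hr n
  rw [ha, smul_eq_mul, smul_eq_mul, mul_comm, mul_comm (lam c)]
  have h1 : ∀ y : ℂ, (a : ℂ) * y = a • y := fun y => by rw [Rat.smul_def]
  rw [h1, h1, map_smul]

lemma IsInt.isRat {p : PowerSeries ℂ} (h : IsInt p) : IsRat p := fun n => by
  obtain ⟨m, hm⟩ := h n
  exact ⟨m, by rw [hm]; simp⟩

lemma IsRat.add {p q : PowerSeries ℂ} (hp : IsRat p) (hq : IsRat q) : IsRat (p + q) := fun n => by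
  obtain ⟨a, ha⟩ := hp n; obtain ⟨b, hb⟩ := hq n
  exact ⟨a + b, by rw [map_add, ha, hb]; push_cast; rfl⟩

lemma IsRat.mul {p q : PowerSeries ℂ} (hp : IsRat p) (hq : IsRat q) : IsRat (p * q) := fun n => by
  choose a ha using hp; choose b hb using hq
  refine ⟨∑ x ∈ Finset.HasAntidiagonal.antidiagonal n, a x.1 * b x.2, ?_⟩
  rw [PowerSeries.coeff_mul]; push_cast
  exact Finset.sum_congr rfl fun x _ => by rw [ha, hb]

lemma IsRat.smul {p : PowerSeries ℂ} (c : ℚ) (hp : IsRat p) : IsRat ((c : ℂ) • p) := fun n => by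
  obtain ⟨a, ha⟩ := hp n
  exact ⟨c * a, by rw [PowerSeries.coeff_smul, ha]; push_cast; rfl⟩

lemma IsRat.sub {p q : PowerSeries ℂ} (hp : IsRat p) (hq : IsRat q) : IsRat (p - q) := by
  have := hp.add (hq.smul (-1))
  simpa [sub_eq_add_neg] using this

lemma IsRat.one : IsRat 1 := fun n => by
  refine ⟨if n = 0 then 1 else 0, ?_⟩
  rw [PowerSeries.coeff_one]; split_ifs <;> simp

lemma IsRat.zero : IsRat 0 := fun n => ⟨0, by simp⟩

lemma IsRat.pow {p : PowerSeries ℂ} (hp : IsRat p) (n : ℕ) : IsRat (p ^ n) := by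
  induction n with
  | zero => simpa using IsRat.one
  | succ n ih => rw [pow_succ]; exact ih.mul hp

lemma IsRat.sum {ι : Type*} {s : Finset ι} {p : ι → PowerSeries ℂ} (h : ∀ i ∈ s, IsRat (p i)) :
    IsRat (∑ i ∈ s, p i) := by
  classical
  induction s using Finset.induction_on with
  | empty => simpa using IsRat.zero
  | insert i s hi ih =>
    rw [Finset.sum_insert hi]
    exact (h i (Finset.mem_insert_self i s)).add (ih fun j hj => h j (Finset.mem_insert_of_mem hj))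

lemma IsInt.add {p q : PowerSeries ℂ} (hp : IsInt p) (hq : IsInt q) : IsInt (p + q) := fun n => by
  obtain ⟨a, ha⟩ := hp n; obtain ⟨b, hb⟩ := hq n
  exact ⟨a + b, by rw [map_add, ha, hb]; push_cast; rfl⟩

lemma IsInt.mul {p q : PowerSeries ℂ} (hp : IsInt p) (hq : IsInt q) : IsInt (p * q) := fun n => by
  choose a ha using hp; choose b hb using hq
  refine ⟨∑ x ∈ Finset.HasAntidiagonal.antidiagonal n, a x.1 * b x.2, ?_⟩
  rw [PowerSeries.coeff_mul]; push_cast
  exact Finset.sum_congr rfl fun x _ => by rw [ha, hb]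

lemma IsInt.smul {p : PowerSeries ℂ} (c : ℤ) (hp : IsInt p) : IsInt ((c : ℂ) • p) := fun n => by
  obtain ⟨a, ha⟩ := hp n
  exact ⟨c * a, by rw [PowerSeries.coeff_smul, ha]; push_cast; rfl⟩

lemma IsInt.sub {p q : PowerSeries ℂ} (hp : IsInt p) (hq : IsInt q) : IsInt (p - q) := by
  have := hp.add (hq.smul (-1))
  simpa [sub_eq_add_neg] using this

lemma IsInt.one : IsInt 1 := fun n => by
  refine ⟨if n = 0 then 1 else 0, ?_⟩
  rw [PowerSeries.coeff_one]; split_ifs <;> simp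

lemma IsInt.zero : IsInt 0 := fun n => ⟨0, by simp⟩

lemma IsInt.pow {p : PowerSeries ℂ} (hp : IsInt p) (n : ℕ) : IsInt (p ^ n) := by
  induction n with
  | zero => simpa using IsInt.one
  | succ n ih => rw [pow_succ]; exact ih.mul hp

lemma IsInt.sum {ι : Type*} {s : Finset ι} {p : ι → PowerSeries ℂ} (h : ∀ i ∈ s, IsInt (p i)) :
    IsInt (∑ i ∈ s, p i) := by
  classical
  induction s using Finset.induction_on with
  | empty => simpa using IsInt.zero
  | insert i s hi ih =>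
    rw [Finset.sum_insert hi]
    exact (h i (Finset.mem_insert_self i s)).add (ih fun j hj => h j (Finset.mem_insert_of_mem hj))

/-- a `ℚ`-linear retraction `ℂ → ℚ ⊂ ℂ` -/
lemma exists_retraction : ∃ lam : ℂ →ₗ[ℚ] ℂ, (∀ x : ℂ, ∃ r : ℚ, lam x = r) ∧ ∀ r : ℚ, lam r = r := by
  obtain ⟨φ, hφ⟩ := LinearMap.exists_leftInverse_of_injective (Algebra.linearMap ℚ ℂ)
    (LinearMap.ker_eq_bot.mpr (algebraMap ℚ ℂ).injective)
  refine ⟨(Algebra.linearMap ℚ ℂ).comp φ, fun x => ⟨φ x, by simp⟩, fun r => ?_⟩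
  have := LinearMap.congr_fun hφ r
  simp only [LinearMap.comp_apply, Algebra.linearMap_apply, eq_ratCast, LinearMap.id_apply] at this ⊢
  rw [this]

lemma isRat_iff_mapL (lam : ℂ →ₗ[ℚ] ℂ) (h1 : ∀ x : ℂ, ∃ r : ℚ, lam x = r)
    (h2 : ∀ r : ℚ, lam r = r) (p : PowerSeries ℂ) : IsRat p ↔ mapL lam p = p := by
  constructor
  · intro h
    ext n
    obtain ⟨r, hr⟩ := h n
    rw [coeff_mapL, hr, h2]
  · intro h n
    rw [← h, coeff_mapL]
    exact h1 _

lemma mapL_ringHom_eq (σ : ℂ →+* ℂ) (lam : ℂ →ₗ[ℚ] ℂ) (h : ∀ x, lam x = σ x) (p : PowerSeries ℂ) :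
    mapL lam p = PowerSeries.map σ p := by
  ext n; simp [h]

/-- ring homs of `ℂ` as `ℚ`-linear maps -/
def sigL (σ : ℂ →+* ℂ) : ℂ →ₗ[ℚ] ℂ where
  toFun := σ
  map_add' := map_add σ
  map_smul' c x := by simp [Rat.smul_def]

lemma mapL_sigL (σ : ℂ →+* ℂ) (p : PowerSeries ℂ) : mapL (sigL σ) p = PowerSeries.map σ p :=
  mapL_ringHom_eq σ _ (fun _ => rfl) p

end

end Fermat.Agent.MFLib
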